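/-
S30 PRODUCER interface (helper13).

`KummerSystem N p` = the abstract, relational form of "the Kummer groups
`J_{p^n} = {f ∈ F^× : p^n ∣ div f} / F^{× p^n}` of the function field `F = ℚ̄(j(q^d) : d ∣ N)`
are `Hom(A, ℤ/p^n)` for ONE finitely generated abelian group `A`
(`A = Γ₀(N)^ab / ⟨parabolic, elliptic⟩`, torsion allowed)", together with the Galois action on
functions (coefficientwise), the multiplicative Hecke operators, and the properties that the
analytic / arithmetic bricks supply.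

* `R n f c` : "`f` is a Kummer function of exponent `p^n` whose Kummer character is `c`".
* `KummerSystem.nonempty_esData` (`Producer/ToESData.lean`) feeds the landed torsion-robust
  limit `BettiLimit.nonempty_esData` and gives `Nonempty (ESData N p)`, the input of the engine.

No field mentions a place, a divisor, an analytic function, a quotient group or a choice of
roots of unity: those live in the construction of `R`.
-/
import Mathlib
import Fermat.Agent.S30.Defs
import Fermat.Agent.S30.BettiLimit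
import Fermat.Prelude.Def_ModularCurve_ArithmeticGalois

set_option autoImplicit false

namespace Fermat.Agent.S30.Producer

open ModularCurve

/-- The constant field `ℚ̄`. -/
abbrev Qb : Type := AlgebraicClosure ℚ

/-- The function field of `X₀(N)` over `ℚ̄`, inside `ℚ̄((q))`. -/
abbrev FN (N : ℕ) : Type := ↥(modularFunctionFieldBar N)

/-- The Galois action of `G_ℚ` on the function field: coefficientwise on `q`-expansions
(Prelude `arithmeticRingAut`). -/
noncomputable def galF (N : ℕ) (σ : GQ) : FN N ≃+* FN N :=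
  arithmeticRingAut (modularFunctionFieldFull N) σ

@[simp]
theorem coe_galF (N : ℕ) (σ : GQ) (f : FN N) :
    ((galF N σ f : FN N) : LaurentSeries Qb) = coeffMap (σ : Qb →+* Qb) (f : LaurentSeries Qb) :=
  rfl

theorem galF_one (N : ℕ) (f : FN N) : galF N 1 f = f := by
  apply Subtype.ext
  rw [coe_galF]
  rw [show ((1 : GQ) : Qb →+* Qb) = RingHom.id Qb from RingHom.ext fun _ => rfl, coeffMap_id]

theorem galF_mul (N : ℕ) (σ τ : GQ) (f : FN N) : galF N (σ * τ) f = galF N σ (galF N τ f) := by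
  apply Subtype.ext
  rw [coe_galF, coe_galF, coe_galF, coeffMap_coeffMap]
  exact coeffMap_congr (RingHom.ext fun _ => rfl) _

/-- A prime `ℓ` is *relevant* for `(N, p)` if `ℓ ∤ N` and `ℓ ≠ p`. -/
def Relevant (N p ℓ : ℕ) : Prop := ℓ.Prime ∧ ¬ ℓ ∣ N ∧ ℓ ≠ p

/-- The abstract Kummer system for level `N` and the prime `p`. -/
structure KummerSystem (N p : ℕ) [NeZero N] [Fact p.Prime] where
  /-- `Γ₀(N)^ab / ⟨parabolic, elliptic⟩` (any finitely generated abelian group) -/
  A : Type
  [instA : AddCommGroup A]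
  fgA : AddGroup.FG A
  /-- the Hecke correspondences on `A` (only the values at relevant primes matter) -/
  τ : ℕ → A →+ A
  /-- the multiplicative Hecke operators on the function field (only relevant primes matter) -/
  heckeF : ℕ → FN N → FN N
  /-- `R n f c`: `f` is a Kummer function of exponent `p ^ n` with Kummer character `c` -/
  R : (n : ℕ) → FN N → (A →+ ZMod (p ^ n)) → Prop
  ne_zero : ∀ {n : ℕ} {f : FN N} {c : A →+ ZMod (p ^ n)}, R n f c → f ≠ 0
  /-- surjectivity of the Kummer character (Eisenstein series with character + descent) -/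
  ex : ∀ (n : ℕ) (c : A →+ ZMod (p ^ n)), ∃ f : FN N, R n f c
  mul : ∀ {n : ℕ} {f g : FN N} {c d : A →+ ZMod (p ^ n)},
    R n f c → R n g d → R n (f * g) (c + d)
  /-- the character is determined by the function -/
  uniq : ∀ {n : ℕ} {f : FN N} {c d : A →+ ZMod (p ^ n)}, R n f c → R n f d → c = d
  /-- injectivity of the Kummer character (trivial character ⇒ `p^n`-th power) -/
  inj : ∀ {n : ℕ} {f : FN N}, R n f 0 → ∃ g : FN N, f = g ^ (p ^ n)
  pow : ∀ (n : ℕ) {g : FN N}, g ≠ 0 → R n (g ^ (p ^ n)) 0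
  /-- transition `J_{p^(n+1)} → J_{p^n}` is the identity on representatives -/
  red : ∀ {n : ℕ} {f : FN N} {c : A →+ ZMod (p ^ (n + 1))},
    R (n + 1) f c → R n f (BettiLimit.red A p n c)
  /-- Galois stability of the Kummer functions -/
  gal : ∀ (σ : GQ) {n : ℕ} {f : FN N} {c : A →+ ZMod (p ^ n)},
    R n f c → ∃ d : A →+ ZMod (p ^ n), R n (galF N σ f) d
  /-- Hecke operators on characters: `c ↦ c ∘ τ ℓ` -/
  hecke : ∀ {ℓ : ℕ}, Relevant N p ℓ → ∀ {n : ℕ} {f : FN N} {c : A →+ ZMod (p ^ n)},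
    R n f c → R n (heckeF ℓ f) (c.comp (τ ℓ))
  /-- Hecke operators commute with the Galois action (on Kummer functions) -/
  hecke_gal : ∀ {ℓ : ℕ}, Relevant N p ℓ → ∀ (σ : GQ) {n : ℕ} {f : FN N} {c : A →+ ZMod (p ^ n)},
    R n f c → heckeF ℓ (galF N σ f) = galF N σ (heckeF ℓ f)
  /-- every function is fixed by an open subgroup -/
  cont : ∀ f : FN N, ∃ L : IntermediateField ℚ Qb, FiniteDimensional ℚ L ∧
    ∀ σ : GQ, (∀ x ∈ L, σ x = x) → galF N σ f = f
  /-- inertia at `q ∤ N p` acts trivially on Kummer classes -/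
  unr : ∀ q : ℕ, q.Prime → ¬ q ∣ N → q ≠ p →
    ∀ P : ValuationSubring Qb, P.LiesOverPrime q →
      ∀ σ ∈ P.inertiaSubgroupIn ℚ, ∀ {n : ℕ} {f : FN N} {c : A →+ ZMod (p ^ n)},
        R n f c → ∃ g : FN N, galF N σ f = f * g ^ (p ^ n)
  /-- the Eichler–Shimura relation on Kummer classes -/
  es : ∀ ℓ : ℕ, Relevant N p ℓ →
    ∀ B : ValuationSubring Qb, B.LiesOverPrime ℓ →
      ∀ σ : GQ, B.IsFrobeniusAt σ ℓ → ∀ {n : ℕ} {f : FN N} {c : A →+ ZMod (p ^ n)},
        R n f c → ∃ g : FN N,
          galF N σ (galF N σ f) * f ^ ℓ = heckeF ℓ (galF N σ f) * g ^ (p ^ n)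
  /-- the Hecke correspondences commute on the torsion-free quotient of `A` -/
  τ_comm : ∀ ℓ ℓ' : ℕ, ℓ.Prime → ¬ ℓ ∣ N → ℓ ≠ p → ℓ'.Prime → ¬ ℓ' ∣ N → ℓ' ≠ p →
    ∀ c : A →+ ℤ, (c.comp (τ ℓ)).comp (τ ℓ') = (c.comp (τ ℓ')).comp (τ ℓ)
  /-- the weight-2 cusp forms occur: an injective Hecke-equivariant period map into `Hom(A, ℂ)` -/
  occ : ∃ P : CuspForm (CongruenceSubgroup.Gamma0 N) 2 →ₗ[ℂ] (A → ℂ),
    (∀ f a b, P f (a + b) = P f a + P f b) ∧ Function.Injective P ∧
      ∀ (ℓ : ℕ) (hℓ : ℓ.Prime) (hℓN : ¬ ℓ ∣ N), ℓ ≠ p →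
        ∀ f a, P (CuspForm.heckeTLin 2 hℓ hℓN f) a = P f (τ ℓ a)

attribute [instance] KummerSystem.instA

end Fermat.Agent.S30.Producer
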