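/-
S30 PRODUCER, concrete objects (helper13).  FROZEN definitions shared by E4 / E5 / P:

* `parEll N`   : the elements of `Γ₀(N)` with `tr² ≤ 4` (parabolic, elliptic, `±1`);
* `AN N`       : `Γ₀(N)^ab / ⟨parEll⟩`, written additively; `proj N : Γ₀(N) → AN N`;
                 `lift` (universal property), `fg_AN`;
* `chi N m c`  : the `μ_m`-valued character of `Γ₀(N)` attached to `c : AN N →+ ZMod m`
                 (`γ ↦ exp(2πi · c(γ) / m)`, Mathlib's `ZMod.stdAddChar`);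
* `tau N ℓ`    : the Hecke correspondence on `AN N` (transfer, `BettiHecke.tHom`);
* `heckeF N ℓ` : the multiplicative Hecke operator on `FN N` (`Congr.heckeMul`);
* `KRel N m f c` : "`f ≠ 0`, `m ∣ div f`, and `f` has a holomorphic `m`-th root on `ℍ`
                 (`KummerChar.IsKummerRoot`) with multiplier `chi N m c`".

The concrete Kummer system is `R n f c := KRel N (p ^ n) f c`.
-/
import Mathlib
import Fermat.Agent.S30.Producer.Defs
import Fermat.Agent.S30.BettiHecke.Hom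
import Fermat.Agent.S30.KummerChar.Root
import Fermat.Agent.S30.E4.Defs
import Fermat.Agent.S22.GammaFG

set_option autoImplicit false

noncomputable section

open scoped MatrixGroups
open CongruenceSubgroup ModularCurve AlgebraicCurve UpperHalfPlane
open Fermat.Agent.S24.HolH Fermat.Agent.S24.Theta Fermat.Agent.S24.Modular

namespace Fermat.Agent.S30.Producer

/-! ### The group `A = Γ₀(N)^ab / ⟨parabolic, elliptic⟩` -/

/-- The parabolic and elliptic elements (and `±1`) of `Γ₀(N)`: those with `tr² ≤ 4`. -/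
def parEll (N : ℕ) : Set (Gamma0 N) :=
  {γ | ((γ : SL(2, ℤ)) : Matrix (Fin 2) (Fin 2) ℤ).trace ^ 2 ≤ 4}

theorem mem_parEll {N : ℕ} {γ : Gamma0 N} :
    γ ∈ parEll N ↔ ((γ : SL(2, ℤ)) : Matrix (Fin 2) (Fin 2) ℤ).trace ^ 2 ≤ 4 := Iff.rfl

/-- `Γ₀(N) / ⟨⟨parEll⟩⟩`. -/
abbrev QN (N : ℕ) : Type := Gamma0 N ⧸ Subgroup.normalClosure (parEll N)

/-- `A = Γ₀(N)^ab / ⟨parabolic, elliptic⟩`, written additively. -/
abbrev AN (N : ℕ) : Type := Additive (Abelianization (QN N))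

/-- The projection `Γ₀(N) → A` (multiplicative form). -/
def projHom (N : ℕ) : Gamma0 N →* Abelianization (QN N) :=
  Abelianization.of.comp (QuotientGroup.mk' (Subgroup.normalClosure (parEll N)))

/-- The projection `Γ₀(N) → A`. -/
def proj (N : ℕ) : Additive (Gamma0 N) →+ AN N := MonoidHom.toAdditive (projHom N)

theorem projHom_surjective (N : ℕ) : Function.Surjective (projHom N) := by
  intro x
  obtain ⟨y, rfl⟩ := QuotientGroup.mk_surjective (s := commutator (QN N)) x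
  obtain ⟨g, rfl⟩ := QuotientGroup.mk'_surjective (Subgroup.normalClosure (parEll N)) y
  exact ⟨g, rfl⟩

theorem proj_surjective (N : ℕ) : Function.Surjective (proj N) := fun x => by
  obtain ⟨g, hg⟩ := projHom_surjective N (Additive.toMul x)
  exact ⟨Additive.ofMul g, congrArg Additive.ofMul hg⟩

theorem proj_parEll {N : ℕ} {γ : Gamma0 N} (hγ : γ ∈ parEll N) :
    proj N (Additive.ofMul γ) = 0 := by
  have h : (QuotientGroup.mk' (Subgroup.normalClosure (parEll N))) γ = 1 :=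
    (QuotientGroup.eq_one_iff γ).mpr (Subgroup.subset_normalClosure hγ)
  show Additive.ofMul (Abelianization.of ((QuotientGroup.mk' _) γ)) = 0
  rw [h, map_one]
  rfl

/-- Universal property of `A`: a homomorphism `Γ₀(N) → M` killing `parEll` factors through `A`. -/
def lift {N : ℕ} {M : Type*} [AddCommGroup M] (φ : Additive (Gamma0 N) →+ M)
    (h : ∀ γ ∈ parEll N, φ (Additive.ofMul γ) = 0) : AN N →+ M :=
  MonoidHom.toAdditiveLeft
    (Abelianization.lift
      (QuotientGroup.lift (Subgroup.normalClosure (parEll N))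
        (AddMonoidHom.toMultiplicativeRight φ)
        (Subgroup.normalClosure_le_normal fun γ hγ => by
          rw [SetLike.mem_coe, MonoidHom.mem_ker]
          exact congrArg Multiplicative.ofAdd (h γ hγ))))

@[simp]
theorem lift_proj {N : ℕ} {M : Type*} [AddCommGroup M] (φ : Additive (Gamma0 N) →+ M)
    (h : ∀ γ ∈ parEll N, φ (Additive.ofMul γ) = 0) (γ : Additive (Gamma0 N)) :
    lift φ h (proj N γ) = φ γ := rfl

theorem lift_comp_proj {N : ℕ} {M : Type*} [AddCommGroup M] (φ : Additive (Gamma0 N) →+ M)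
    (h : ∀ γ ∈ parEll N, φ (Additive.ofMul γ) = 0) : (lift φ h).comp (proj N) = φ :=
  AddMonoidHom.ext fun γ => lift_proj φ h γ

/-- Homomorphisms out of `A` are determined by their pull-back to `Γ₀(N)`. -/
theorem hom_ext {N : ℕ} {M : Type*} [AddCommGroup M] {c d : AN N →+ M}
    (h : ∀ γ : Gamma0 N, c (proj N (Additive.ofMul γ)) = d (proj N (Additive.ofMul γ))) :
    c = d := by
  refine AddMonoidHom.ext fun x => ?_
  obtain ⟨γ, rfl⟩ := proj_surjective N x
  exact h (Additive.toMul γ)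

theorem fg_AN (N : ℕ) [NeZero N] : AddGroup.FG (AN N) := by
  have : Group.FG (Gamma0 N) := Fermat.Agent.S22.GammaFG.gamma0_fg N
  exact GroupFG.iff_add_fg.mp (Group.fg_of_surjective (projHom_surjective N))

/-! ### Characters -/

/-- The `μ_m`-valued character of `Γ₀(N)` attached to `c : A →+ ℤ/m`. -/
def chi (N m : ℕ) [NeZero m] (c : AN N →+ ZMod m) (γ : Gamma0 N) : ℂ :=
  ZMod.stdAddChar (c (proj N (Additive.ofMul γ)))

theorem chi_zero (N m : ℕ) [NeZero m] (γ : Gamma0 N) : chi N m 0 γ = 1 := by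
  simp [chi]

theorem chi_add (N m : ℕ) [NeZero m] (c d : AN N →+ ZMod m) (γ : Gamma0 N) :
    chi N m (c + d) γ = chi N m c γ * chi N m d γ := by
  simp [chi, AddChar.map_add_eq_mul]

theorem chi_mul (N m : ℕ) [NeZero m] (c : AN N →+ ZMod m) (γ δ : Gamma0 N) :
    chi N m c (γ * δ) = chi N m c γ * chi N m c δ := by
  simp [chi, AddChar.map_add_eq_mul]

theorem chi_injective (N m : ℕ) [NeZero m] {c d : AN N →+ ZMod m}
    (h : ∀ γ : Gamma0 N, chi N m c γ = chi N m d γ) : c = d :=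
  hom_ext fun γ => ZMod.injective_stdAddChar (h γ)

theorem chi_parEll (N m : ℕ) [NeZero m] (c : AN N →+ ZMod m) {γ : Gamma0 N}
    (hγ : γ ∈ parEll N) : chi N m c γ = 1 := by
  simp [chi, proj_parEll hγ]

/-! ### The Hecke correspondence on `A` -/

/-- The transfer `Γ₀(N) → A`, `γ ↦ ∑ₓ [coc γ x]` (Hecke operator applied to `proj`). -/
def tauHom (N : ℕ) {ℓ : ℕ} (hℓ : ℓ.Prime) (hℓN : ¬ ℓ ∣ N) : Additive (Gamma0 N) →+ AN N :=
  haveI : NeZero ℓ := ⟨hℓ.ne_zero⟩
  BettiHecke.tHom (AN N) hℓ hℓN (proj N)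

open Classical in
/-- The Hecke correspondence `τ_ℓ` on `A` (zero at irrelevant `ℓ`, and junk `0` unless the
transfer kills `parEll`, which is the brick `Prod.THomParEll`). -/
def tau (N ℓ : ℕ) : AN N →+ AN N :=
  if h : ∃ (hℓ : ℓ.Prime) (hℓN : ¬ ℓ ∣ N), ∀ γ ∈ parEll N, tauHom N hℓ hℓN (Additive.ofMul γ) = 0
  then lift (tauHom N h.choose h.choose_spec.choose) h.choose_spec.choose_spec else 0

theorem tau_proj (N : ℕ) {ℓ : ℕ} (hℓ : ℓ.Prime) (hℓN : ¬ ℓ ∣ N)
    (h : ∀ γ ∈ parEll N, tauHom N hℓ hℓN (Additive.ofMul γ) = 0) (γ : Additive (Gamma0 N)) :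
    tau N ℓ (proj N γ) = tauHom N hℓ hℓN γ := by
  have hex : ∃ (hℓ : ℓ.Prime) (hℓN : ¬ ℓ ∣ N),
      ∀ γ ∈ parEll N, tauHom N hℓ hℓN (Additive.ofMul γ) = 0 := ⟨hℓ, hℓN, h⟩
  unfold tau
  rw [dif_pos hex]
  rfl

/-! ### The Hecke operator on functions -/

/-- A fixed primitive `ℓ`-th root of unity of `ℚ̄` (junk `1` if there is none). -/
def zeta (ℓ : ℕ) : Qbˣ :=
  open Classical in if h : ∃ z : Qbˣ, IsPrimitiveRoot z ℓ then h.choose else 1

theorem zeta_spec {ℓ : ℕ} (hℓ : 0 < ℓ) : IsPrimitiveRoot (zeta ℓ) ℓ := by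
  have hex : ∃ z : Qbˣ, IsPrimitiveRoot z ℓ := by
    have : NeZero (ℓ : Qb) := ⟨Nat.cast_ne_zero.mpr hℓ.ne'⟩
    obtain ⟨z, hz⟩ := HasEnoughRootsOfUnity.exists_primitiveRoot Qb ℓ
    exact ⟨hz.isUnit hℓ.ne' |>.unit, IsPrimitiveRoot.coe_units_iff.mp (by simpa using hz)⟩
  unfold zeta
  rw [dif_pos hex]
  exact hex.choose_spec

open Classical in
/-- The multiplicative Hecke operator `T_ℓ f = f(q^ℓ) ∏_{i<ℓ} f(ζⁱ q^{1/ℓ})` on `FN N`
(junk `1` for `ℓ = 0` or if the result is not in `FN N`; membership is the brick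
`E4.HeckeClosed`). -/
def heckeF (N ℓ : ℕ) (f : FN N) : FN N :=
  if h : ∃ hℓ : 0 < ℓ, Congr.heckeMul ℓ hℓ (zeta ℓ) (f : LaurentSeries Qb) ∈ modularFunctionFieldBar N
  then ⟨_, h.choose_spec⟩ else 1

theorem coe_heckeF (N : ℕ) {ℓ : ℕ} (hℓ : 0 < ℓ) (f : FN N)
    (h : Congr.heckeMul ℓ hℓ (zeta ℓ) (f : LaurentSeries Qb) ∈ modularFunctionFieldBar N) :
    ((heckeF N ℓ f : FN N) : LaurentSeries Qb) = Congr.heckeMul ℓ hℓ (zeta ℓ) (f : LaurentSeries Qb) := by
  have hex : ∃ hℓ : 0 < ℓ,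
      Congr.heckeMul ℓ hℓ (zeta ℓ) (f : LaurentSeries Qb) ∈ modularFunctionFieldBar N := ⟨hℓ, h⟩
  unfold heckeF
  rw [dif_pos hex]

/-! ### The Kummer relation -/

/-- `KRel N m f c`: `f ≠ 0`, `m ∣ div f`, and `f = a / b` (`a b : A0 N`) has a holomorphic `m`-th
root `H` of `θ a · θ b ^ (m - 1)` on `ℍ` whose multiplier under `Γ₀(N)` is `chi N m c`. -/
def KRel (N m : ℕ) [NeZero m] (f : FN N) (c : AN N →+ ZMod m) : Prop :=
  f ≠ 0 ∧ E4.DivBy N m f ∧
    ∃ (a b : A0 N) (H : HolH), a ≠ 0 ∧ b ≠ 0 ∧ f * (b : FN N) = (a : FN N) ∧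
      KummerChar.IsKummerRoot iotaBar m a b H ∧
      ∀ γ : Gamma0 N, KummerChar.mult (γ : SL(2, ℤ)) H = chi N m c γ

end Fermat.Agent.S30.Producer
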