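/-
S30 PRODUCER, the brick interface (helper13).  One `Prop` per deliverable of E4 / E5 / P.
`Producer/Assembly.lean` proves `Nonempty (KummerSystem N p)` from these Props; each Prop is a
row `Prod.*` of the team `tasks` table.  Owners prove `theorem foo : Bricks.Foo N` in THEIR OWN
file (importing this one); nobody edits this file except helper13.

Notation: `θ = S24.Theta.theta iotaBar N : A0 N →+* HolH`,
`IsKummerRoot iotaBar m a b H : H ^ m = θ a * θ b ^ (m - 1)`, `mult γ H` = multiplier of `H`.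
-/
import Mathlib
import Fermat.Agent.S30.Producer.Objects
import Fermat.Prelude.Def_ModularCurve_PeriodHomPair

set_option autoImplicit false

noncomputable section

open scoped MatrixGroups
open CongruenceSubgroup ModularCurve AlgebraicCurve UpperHalfPlane
open Fermat.Agent.S24.HolH Fermat.Agent.S24.Theta Fermat.Agent.S24.Modular
open Fermat.Agent.S30.KummerChar

namespace Fermat.Agent.S30.Producer.Bricks

/-- (E5.Root) Every Kummer function has a holomorphic `m`-th root on `ℍ`.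
[Lib.HolRootH.exists_root_frac + KummerChar.exists_eq_mul_of_dvd_ord] -/
def Root (N : ℕ) : Prop :=
  ∀ (m : ℕ), 0 < m → ∀ f : FN N, f ≠ 0 → E4.DivBy N m f →
    ∃ (a b : A0 N) (H : HolH), a ≠ 0 ∧ b ≠ 0 ∧ f * (b : FN N) = (a : FN N) ∧
      IsKummerRoot iotaBar m a b H

/-- (E5.ParEll) The multiplier of a Kummer root is trivial on parabolic and elliptic elements.
[KummerChar.Elliptic.mult_eq_one_of_fixed + KummerChar.Cusp + `tr² ≤ 4` case analysis] -/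
def ParEll (N : ℕ) : Prop :=
  ∀ (m : ℕ), 0 < m → ∀ (a b : A0 N) (H : HolH), a ≠ 0 → b ≠ 0 →
    (∀ v : Place Kbar (FN N), (m : ℤ) ∣ v.ord (a : FN N) - v.ord (b : FN N)) →
    IsKummerRoot iotaBar m a b H → ∀ γ : Gamma0 N, γ ∈ parEll N → mult (γ : SL(2, ℤ)) H = 1

/-- (E5.Inj) A `Γ₀(N)`-invariant holomorphic `m`-th root of an element of `A0 N` lies in `FN N`.
[helper155 RootQExp (Q4)] -/
def Inj (N : ℕ) : Prop :=
  ∀ (m : ℕ), 0 < m → ∀ (x : A0 N) (H : HolH), H ^ m = theta iotaBar N x →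
    (∀ γ : SL(2, ℤ), γ ∈ Gamma0 N → compSL γ H = H) → ∃ y : FN N, y ^ m = (x : FN N)

/-- (E5.Surj) Every `μ_m`-valued character of `Γ₀(N)` trivial on parabolic and elliptic elements
is the Kummer character of a function of `FN N` (over `ℚ̄`!) with `m ∣ div f`.
[EisChar + Rational + PlacePoint (point → place) + Descent ℂ → ℚ̄] -/
def Surj (N : ℕ) : Prop :=
  ∀ (m : ℕ), 0 < m → ∀ φ : Gamma0 N →* ℂˣ, (∀ γ, φ γ ^ m = 1) → (∀ γ ∈ parEll N, φ γ = 1) →
    ∃ (f : FN N) (a b : A0 N) (H : HolH), f ≠ 0 ∧ E4.DivBy N m f ∧ a ≠ 0 ∧ b ≠ 0 ∧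
      f * (b : FN N) = (a : FN N) ∧ IsKummerRoot iotaBar m a b H ∧
      ∀ γ : Gamma0 N, mult (γ : SL(2, ℤ)) H = (φ γ : ℂ)

/-- (E5.HeckeRoot) The Hecke operator on roots: if `f = a / b` has the root `H`, then
`T_ℓ f` (an element of `FN N` with `q`-expansion `Congr.heckeMul`) has a root whose multiplier
at `γ` is `∏ₓ mult (coc γ x) H`.
[BettiHecke.heckeProd_smul + HeckeNormQ (analytic avatar of heckeMul)] -/
def HeckeRoot (N : ℕ) : Prop :=
  ∀ (ℓ : ℕ) [NeZero ℓ] (hℓ : ℓ.Prime) (hℓN : ¬ ℓ ∣ N) (m : ℕ), 0 < m →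
    ∀ (f g : FN N) (a b : A0 N) (H : HolH), a ≠ 0 → b ≠ 0 → f * (b : FN N) = (a : FN N) →
      IsKummerRoot iotaBar m a b H →
      (g : LaurentSeries Qb) = Congr.heckeMul ℓ hℓ.pos (zeta ℓ) (f : LaurentSeries Qb) →
      ∃ (a' b' : A0 N) (H' : HolH), a' ≠ 0 ∧ b' ≠ 0 ∧ g * (b' : FN N) = (a' : FN N) ∧
        IsKummerRoot iotaBar m a' b' H' ∧
        ∀ γ : Gamma0 N, mult (γ : SL(2, ℤ)) H' =
          ∏ x : OnePoint (ZMod ℓ), mult ((BettiHecke.coc hℓ hℓN γ x : Gamma0 N) : SL(2, ℤ)) H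

/-- (E4.HeckeClosed) `T_ℓ` preserves `FN N` and `m ∣ div` (task 226). -/
def Closed (N : ℕ) : Prop :=
  ∀ (ℓ : ℕ) (hℓ : ℓ.Prime), ¬ ℓ ∣ N → E4.HeckeClosed N ℓ hℓ.pos (zeta ℓ)

/-- (P.THomParEll) The transfer `γ ↦ ∑ₓ [coc γ x] ∈ A` kills parabolic and elliptic elements
(cycle argument). -/
def THomParEll (N : ℕ) : Prop :=
  ∀ (ℓ : ℕ) (hℓ : ℓ.Prime) (hℓN : ¬ ℓ ∣ N), ∀ γ ∈ parEll N,
    tauHom N hℓ hℓN (Additive.ofMul γ) = 0

/-- (E4.HeckeGal) The formal Hecke operator commutes with the coefficientwise Galois action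
(`coeffMap_heckeMul` + independence of the primitive root). -/
def HeckeGal : Prop :=
  ∀ (ℓ : ℕ) (hℓ : ℓ.Prime) (σ : GQ) (f : LaurentSeries Qb),
    Congr.heckeMul ℓ hℓ.pos (zeta ℓ) (coeffMap (σ : Qb →+* Qb) f) =
      coeffMap (σ : Qb →+* Qb) (Congr.heckeMul ℓ hℓ.pos (zeta ℓ) f)

/-- (E4.Cont) Every function of `FN N` is fixed by an open subgroup of `G_ℚ`. -/
def Cont (N : ℕ) : Prop :=
  ∀ f : FN N, ∃ L : IntermediateField ℚ Qb, FiniteDimensional ℚ L ∧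
    ∀ σ : GQ, (∀ x ∈ L, σ x = x) → galF N σ f = f

/-- (E4.Gauss) Gauss normalisation at every valuation subring over a prime (task 225). -/
def Gauss (N : ℕ) : Prop :=
  ∀ (q : ℕ), q.Prime → ∀ A : ValuationSubring Qb, A.LiesOverPrime q → E4.HasGaussNorm N A

/-- (E1–E3 exit) the Kummer statement (K1) at every prime `q ∤ N` (task 227). -/
def K1 (N : ℕ) : Prop :=
  ∀ (q : ℕ), q.Prime → ¬ q ∣ N → ∀ A : ValuationSubring Qb, A.LiesOverPrime q → E4.K1 N q A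

/-- (E5.Period) The period map: an injective, Hecke-equivariant linear map
`S₂(Γ₀(N)) → Hom(A, ℂ)`.  [S21 + S16.LB.HeckePeriod.periodMap_heckeT + THomParEll] -/
def Period (N : ℕ) [NeZero N] : Prop :=
  ∃ P : CuspForm (Gamma0 N) 2 →ₗ[ℂ] (AN N → ℂ),
    (∀ f a b, P f (a + b) = P f a + P f b) ∧ Function.Injective P ∧
      ∀ (ℓ : ℕ) (hℓ : ℓ.Prime) (hℓN : ¬ ℓ ∣ N) (f : CuspForm (Gamma0 N) 2) (a : AN N),
        P (CuspForm.heckeTLin 2 hℓ hℓN f) a = P f (tau N ℓ a)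

/-- (E5.TauComm) The Hecke correspondences commute on integral characters of `A`. -/
def TauComm (N : ℕ) : Prop :=
  ∀ ℓ ℓ' : ℕ, ℓ.Prime → ¬ ℓ ∣ N → ℓ'.Prime → ¬ ℓ' ∣ N →
    ∀ c : AN N →+ ℤ, (c.comp (tau N ℓ)).comp (tau N ℓ') = (c.comp (tau N ℓ')).comp (tau N ℓ)

end Fermat.Agent.S30.Producer.Bricks
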