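/-
S30 PRODUCER, Betti bricks (helper172): `Bricks.THomParEll`, `Bricks.Period`, `Bricks.TauComm`
and `Bricks.ParEll` for helper13's objects (`AN N`, `parEll N`, `tau N ℓ`), transported from
`Fermat.Agent.S30.BettiA` (`A N`, `peSet N`, `BettiA.tau N ℓ`) along the canonical isomorphism
`A N ≃ AN N`.
-/
import Mathlib
import Fermat.Agent.S30.Producer.Bricks
import Fermat.Agent.S30.BettiA
import Fermat.Agent.S30.KummerChar.Main

set_option autoImplicit false

noncomputable section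

open scoped MatrixGroups
open CongruenceSubgroup ModularCurve AlgebraicCurve UpperHalfPlane
open Fermat.Agent.S24.HolH Fermat.Agent.S24.Theta Fermat.Agent.S24.Modular
open Fermat.Agent.S30.KummerChar

namespace Fermat.Agent.S30.Producer.BettiABricks

variable {N : ℕ}

theorem mem_parEll_iff_mem_peSet {γ : Gamma0 N} : γ ∈ parEll N ↔ γ ∈ BettiA.peSet N := by
  rw [mem_parEll, BettiA.mem_peSet, BettiA.trG_eq_trace]

/-- The canonical map `A N → AN N`. -/
def toAN (N : ℕ) : BettiA.A N →+ AN N :=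
  BettiA.lift (proj N) fun _ hγ => proj_parEll (mem_parEll_iff_mem_peSet.mpr hγ)

/-- The canonical map `AN N → A N`. -/
def ofAN (N : ℕ) : AN N →+ BettiA.A N :=
  Producer.lift (BettiA.cls N) fun _ hγ =>
    BettiA.cls_eq_zero_of_mem (mem_parEll_iff_mem_peSet.mp hγ)

theorem toAN_cls (γ : Additive (Gamma0 N)) : toAN N (BettiA.cls N γ) = proj N γ :=
  BettiA.lift_cls _ _ γ

theorem ofAN_proj (γ : Additive (Gamma0 N)) : ofAN N (proj N γ) = BettiA.cls N γ :=
  lift_proj _ _ γ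

theorem toAN_comp_cls : (toAN N).comp (BettiA.cls N) = proj N :=
  AddMonoidHom.ext toAN_cls

theorem ofAN_comp_proj : (ofAN N).comp (proj N) = BettiA.cls N :=
  AddMonoidHom.ext ofAN_proj

theorem toAN_ofAN (a : AN N) : toAN N (ofAN N a) = a := by
  obtain ⟨γ, rfl⟩ := proj_surjective N a
  rw [ofAN_proj, toAN_cls]

theorem ofAN_toAN (a : BettiA.A N) : ofAN N (toAN N a) = a := by
  obtain ⟨γ, rfl⟩ := BettiA.cls_surjective N a
  rw [toAN_cls, ofAN_proj]

theorem ofAN_surjective : Function.Surjective (ofAN N) := fun a => ⟨toAN N a, ofAN_toAN a⟩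

/-- (P.THomParEll) The transfer kills the elements of trace² at most `4`. -/
theorem tHomParEll (N : ℕ) : Bricks.THomParEll N := by
  intro ℓ hℓ hℓN γ hγ
  have : NeZero ℓ := ⟨hℓ.ne_zero⟩
  show BettiHecke.tHom (AN N) hℓ hℓN (proj N) (Additive.ofMul γ) = 0
  rw [← toAN_comp_cls, BettiHecke.tHom_comp, AddMonoidHom.comp_apply,
    BettiA.tHom_cls_eq_zero hℓ hℓN (mem_parEll_iff_mem_peSet.mp hγ), map_zero]

/-- The two Hecke correspondences agree. -/
theorem ofAN_tau {ℓ : ℕ} (hℓ : ℓ.Prime) (hℓN : ¬ ℓ ∣ N) (a : AN N) :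
    ofAN N (tau N ℓ a) = BettiA.tau N ℓ (ofAN N a) := by
  have : NeZero ℓ := ⟨hℓ.ne_zero⟩
  obtain ⟨γ, rfl⟩ := proj_surjective N a
  rw [tau_proj N hℓ hℓN (tHomParEll N ℓ hℓ hℓN), ofAN_proj]
  have h1 : ofAN N (tauHom N hℓ hℓN γ) =
      ((ofAN N).comp (BettiHecke.tHom (AN N) hℓ hℓN (proj N))) γ := rfl
  rw [h1, ← BettiHecke.tHom_comp, ofAN_comp_proj, ← BettiA.tau_comp_cls hℓ hℓN]
  rfl

theorem tau_toAN {ℓ : ℕ} (hℓ : ℓ.Prime) (hℓN : ¬ ℓ ∣ N) (a : BettiA.A N) :
    tau N ℓ (toAN N a) = toAN N (BettiA.tau N ℓ a) := by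
  have h := ofAN_tau hℓ hℓN (toAN N a)
  rw [ofAN_toAN] at h
  rw [← h, toAN_ofAN]

/-- (E5.Period) The period map on `AN N`. -/
theorem period (N : ℕ) [NeZero N] : Bricks.Period N := by
  refine ⟨(LinearMap.funLeft ℂ ℂ (ofAN N : AN N → BettiA.A N)).comp (BettiA.perLin N),
    fun f a b => ?_, fun f g hfg => ?_, fun ℓ hℓ hℓN f a => ?_⟩
  · show BettiA.perLin N f (ofAN N (a + b)) = BettiA.perLin N f (ofAN N a) +
      BettiA.perLin N f (ofAN N b)
    rw [map_add]
    exact map_add (BettiA.perHom N f) _ _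
  · apply BettiA.perLin_injective N
    funext a
    have h := congrFun hfg (toAN N a)
    have e : ∀ u : CuspForm (Gamma0 N) 2,
        ((LinearMap.funLeft ℂ ℂ (ofAN N : AN N → BettiA.A N)).comp (BettiA.perLin N)) u (toAN N a)
          = BettiA.perLin N u a := fun u => by
      show BettiA.perLin N u (ofAN N (toAN N a)) = _
      rw [ofAN_toAN]
    rwa [e f, e g] at h
  · show BettiA.perLin N (CuspForm.heckeTLin 2 hℓ hℓN f) (ofAN N a) =
      BettiA.perLin N f (ofAN N (tau N ℓ a))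
    rw [ofAN_tau hℓ hℓN, BettiA.perLin_hecke N hℓ hℓN]

/-- (E5.TauComm) The Hecke correspondences commute on integral characters of `AN N`. -/
theorem tauComm (N : ℕ) [NeZero N] : Bricks.TauComm N := by
  intro ℓ ℓ' hℓ hℓN hℓ' hℓ'N c
  have h := BettiA.tau_comm N hℓ hℓN hℓ' hℓ'N (c.comp (toAN N))
  refine AddMonoidHom.ext fun a => ?_
  have h2 := DFunLike.congr_fun h (ofAN N a)
  simp only [AddMonoidHom.comp_apply] at h2 ⊢
  rw [← ofAN_tau hℓ' hℓ'N, ← ofAN_tau hℓ hℓN, ← ofAN_tau hℓ hℓN, ← ofAN_tau hℓ' hℓ'N,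
    toAN_ofAN, toAN_ofAN] at h2
  exact h2

/-- (E5.ParEll) The multiplier of a Kummer root is trivial on the elements of trace² at most
`4`. -/
theorem parEllBrick (N : ℕ) [NeZero N] : Bricks.ParEll N := by
  intro m hm a b H ha hb hdiv hH γ hγ
  rcases BettiA.mem_peSet_cases (mem_parEll_iff_mem_peSet.mp hγ) with ⟨τ, hτ⟩ | ⟨g, n, h | h⟩
  · exact mult_eq_one_of_fixed hm ha hb hdiv hH γ.2 hτ
  · rw [h]
    exact mult_eq_one_of_parabolic hm ha hb hdiv hH g n (h ▸ γ.2)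
  · rw [h]
    exact mult_eq_one_of_neg_parabolic hm ha hb hdiv hH g n (h ▸ γ.2)

end Fermat.Agent.S30.Producer.BettiABricks
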