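/-
S30 PRODUCER, glue lemmas (helper162).  Split of row 245 (Assembly) agreed with helper13:
one lemma per field of `Producer.KummerSystem` for the concrete relation
`R n f c := KRel N (p ^ n) f c` of `Producer/Objects.lean`.

* character algebra: `exists_stdAddChar_eq`, `stdAddChar_pow_castHom`, `chiHom`, `exists_chi`
  (every `μ_m`-valued character of `Γ₀(N)` trivial on `parEll` is `chi N m c`), `chi_red`,
  `chi_comp_tau` (`chi (c ∘ τ_ℓ)` is the transfer of `chi c`);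
* no brick needed: `krel_mul`, `krel_uniq`, `krel_pow`, `krel_inj`, `krel_red`;
* from the bricks: `krel_gal` (`Bricks.ParEll`), `krel_ex` (`Bricks.Surj`),
  `krel_hecke` (`Bricks.THomParEll` + `E4.HeckeDiv`).
-/
import Mathlib
import Fermat.Agent.S30.Producer.Bricks
import Fermat.Agent.S30.KummerKernel
import Fermat.Agent.S30.KummerHecke
import Fermat.Agent.S30.E4.Fields

set_option autoImplicit false

noncomputable section

open scoped MatrixGroups
open CongruenceSubgroup ModularCurve AlgebraicCurve UpperHalfPlane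
open Fermat.Agent.S24.HolH Fermat.Agent.S24.Theta Fermat.Agent.S24.Modular
open Fermat.Agent.S30.KummerChar

namespace Fermat.Agent.S30.Producer.Glue

/-! ### Roots of unity and the standard additive character -/

/-- Every `m`-th root of unity of `ℂ` is a value of the standard additive character. -/
theorem exists_stdAddChar_eq {m : ℕ} [NeZero m] {ζ : ℂ} (hζ : ζ ^ m = 1) :
    ∃ k : ZMod m, ZMod.stdAddChar k = ζ := by
  have hm : m ≠ 0 := NeZero.ne m
  have hprim := Complex.isPrimitiveRoot_exp m hm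
  obtain ⟨i, -, hi⟩ := hprim.eq_pow_of_pow_eq_one hζ
  refine ⟨((i : ℤ) : ZMod m), ?_⟩
  rw [ZMod.stdAddChar_coe, ← hi, ← Complex.exp_nat_mul]
  congr 1
  push_cast
  ring

/-- Reduction `ℤ/p^(n+1) → ℤ/p^n` corresponds to the `p`-th power of the standard character. -/
theorem stdAddChar_pow_castHom (p n : ℕ) [Fact p.Prime] (k : ZMod (p ^ (n + 1))) :
    (ZMod.stdAddChar k : ℂ) ^ p =
      ZMod.stdAddChar (ZMod.castHom (pow_dvd_pow p (Nat.le_succ n)) (ZMod (p ^ n)) k) := by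
  obtain ⟨j, rfl⟩ := ZMod.intCast_surjective k
  have h1 : ZMod.castHom (pow_dvd_pow p (Nat.le_succ n)) (ZMod (p ^ n))
      ((j : ℤ) : ZMod (p ^ (n + 1))) = ((j : ℤ) : ZMod (p ^ n)) := map_intCast _ j
  rw [h1, ZMod.stdAddChar_coe, ZMod.stdAddChar_coe, ← Complex.exp_nat_mul]
  congr 1
  have hp : (p : ℂ) ≠ 0 := Nat.cast_ne_zero.mpr (Fact.out : p.Prime).ne_zero
  push_cast
  field_simp
  ring

theorem stdAddChar_pow_self {m : ℕ} [NeZero m] (k : ZMod m) : (ZMod.stdAddChar k : ℂ) ^ m = 1 := by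
  rw [← AddChar.map_nsmul_eq_pow]
  have : m • k = 0 := by
    rw [nsmul_eq_mul, ZMod.natCast_self, zero_mul]
  rw [this, AddChar.map_zero_eq_one]

theorem stdAddChar_ne_zero {m : ℕ} [NeZero m] (k : ZMod m) : (ZMod.stdAddChar k : ℂ) ≠ 0 := by
  intro h
  have h1 := stdAddChar_pow_self k
  rw [h, zero_pow (NeZero.ne m)] at h1
  exact zero_ne_one h1

theorem addChar_sum {A M κ : Type*} [AddCommMonoid A] [CommMonoid M] (ψ : AddChar A M)
    (s : Finset κ) (f : κ → A) : ψ (∑ i ∈ s, f i) = ∏ i ∈ s, ψ (f i) := by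
  classical
  induction s using Finset.induction_on with
  | empty => simp
  | insert i s hi ih =>
    rw [Finset.sum_insert hi, Finset.prod_insert hi, AddChar.map_add_eq_mul, ih]

/-! ### Characters of `Γ₀(N)` with values in `μ_m` -/

theorem chi_pow (N m : ℕ) [NeZero m] (c : AN N →+ ZMod m) (γ : Gamma0 N) :
    chi N m c γ ^ m = 1 := stdAddChar_pow_self _

theorem chi_ne_zero (N m : ℕ) [NeZero m] (c : AN N →+ ZMod m) (γ : Gamma0 N) :
    chi N m c γ ≠ 0 := stdAddChar_ne_zero _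

theorem chi_one (N m : ℕ) [NeZero m] (c : AN N →+ ZMod m) : chi N m c 1 = 1 := by
  have h := chi_mul N m c 1 1
  rw [mul_one] at h
  have h0 := chi_ne_zero N m c 1
  exact (mul_right_cancel₀ h0 (by rw [one_mul]; exact h)).symm

/-- The `ℂˣ`-valued character attached to `c`. -/
def chiHom (N m : ℕ) [NeZero m] (c : AN N →+ ZMod m) : Gamma0 N →* ℂˣ where
  toFun γ := Units.mk0 (chi N m c γ) (chi_ne_zero N m c γ)
  map_one' := Units.ext (chi_one N m c)
  map_mul' γ δ := Units.ext (chi_mul N m c γ δ)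

@[simp] theorem chiHom_apply (N m : ℕ) [NeZero m] (c : AN N →+ ZMod m) (γ : Gamma0 N) :
    ((chiHom N m c γ : ℂˣ) : ℂ) = chi N m c γ := rfl

/-- Every `μ_m`-valued character of `Γ₀(N)` which is trivial on `parEll` is `chi N m c` for a
(unique) `c : A →+ ℤ/m`. -/
theorem exists_chi (N m : ℕ) [NeZero m] (φ : Gamma0 N →* ℂˣ) (hφ : ∀ γ, φ γ ^ m = 1)
    (hpe : ∀ γ ∈ parEll N, φ γ = 1) :
    ∃ c : AN N →+ ZMod m, ∀ γ : Gamma0 N, chi N m c γ = (φ γ : ℂ) := by
  have hex : ∀ γ : Gamma0 N, ∃ k : ZMod m, ZMod.stdAddChar k = (φ γ : ℂ) := fun γ =>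
    exists_stdAddChar_eq (by
      rw [← Units.val_pow_eq_pow_val, hφ γ, Units.val_one])
  choose k hk using hex
  let ψ : Additive (Gamma0 N) →+ ZMod m := AddMonoidHom.mk' (fun γ => k (Additive.toMul γ))
    (fun γ δ => by
      apply ZMod.injective_stdAddChar
      show ZMod.stdAddChar (k (Additive.toMul γ * Additive.toMul δ)) = _
      rw [AddChar.map_add_eq_mul, hk, hk, hk, map_mul, Units.val_mul])
  have hψ : ∀ γ ∈ parEll N, ψ (Additive.ofMul γ) = 0 := by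
    intro γ hγ
    apply ZMod.injective_stdAddChar
    show ZMod.stdAddChar (k γ) = _
    rw [hk, hpe γ hγ, AddChar.map_zero_eq_one, Units.val_one]
  refine ⟨lift ψ hψ, fun γ => ?_⟩
  show ZMod.stdAddChar (lift ψ hψ (proj N (Additive.ofMul γ))) = _
  rw [lift_proj]
  exact hk γ

/-- Compatibility of `chi` with the transition maps. -/
theorem chi_red (N p n : ℕ) [Fact p.Prime] (c : AN N →+ ZMod (p ^ (n + 1))) (γ : Gamma0 N) :
    chi N (p ^ (n + 1)) c γ ^ p = chi N (p ^ n) (BettiLimit.red (AN N) p n c) γ :=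
  stdAddChar_pow_castHom p n _

/-- The character `c ∘ τ_ℓ` is the transfer of the character `c`. -/
theorem chi_comp_tau (N m : ℕ) [NeZero m] {ℓ : ℕ} [NeZero ℓ] (hℓ : ℓ.Prime) (hℓN : ¬ ℓ ∣ N)
    (hT : ∀ γ ∈ parEll N, tauHom N hℓ hℓN (Additive.ofMul γ) = 0)
    (c : AN N →+ ZMod m) (γ : Gamma0 N) :
    chi N m (c.comp (tau N ℓ)) γ =
      ∏ x : OnePoint (ZMod ℓ), chi N m c (BettiHecke.coc hℓ hℓN γ x) := by
  show ZMod.stdAddChar (c (tau N ℓ (proj N (Additive.ofMul γ)))) = _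
  rw [tau_proj N hℓ hℓN hT]
  show ZMod.stdAddChar (c (BettiHecke.tHom (AN N) hℓ hℓN (proj N) (Additive.ofMul γ))) = _
  rw [BettiHecke.tHom_apply, map_sum, addChar_sum]
  rfl

/-! ### The relation `KRel`: fields that need no brick -/

section KRelBasic

variable {N m : ℕ} [NeZero m]

theorem coe_ne_zero {x : A0 N} (hx : x ≠ 0) : (x : FN N) ≠ 0 := fun h => hx (Subtype.ext h)

theorem krel_ne_zero {f : FN N} {c : AN N →+ ZMod m} (h : KRel N m f c) : f ≠ 0 := h.1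

theorem krel_divBy {f : FN N} {c : AN N →+ ZMod m} (h : KRel N m f c) : E4.DivBy N m f := h.2.1

theorem krel_mul {f g : FN N} {c d : AN N →+ ZMod m} (hf : KRel N m f c) (hg : KRel N m g d) :
    KRel N m (f * g) (c + d) := by
  have hm : 0 < m := Nat.pos_of_ne_zero (NeZero.ne m)
  obtain ⟨hf0, hfd, a₁, b₁, H₁, ha₁, hb₁, e₁, r₁, χ₁⟩ := hf
  obtain ⟨hg0, hgd, a₂, b₂, H₂, ha₂, hb₂, e₂, r₂, χ₂⟩ := hg
  refine ⟨mul_ne_zero hf0 hg0, E4.DivBy.mul hf0 hg0 hfd hgd, a₁ * a₂, b₁ * b₂, H₁ * H₂,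
    mul_ne_zero ha₁ ha₂, mul_ne_zero hb₁ hb₂, ?_, r₁.mul r₂, fun γ => ?_⟩
  · show f * g * ((b₁ : FN N) * (b₂ : FN N)) = (a₁ : FN N) * (a₂ : FN N)
    rw [← e₁, ← e₂]
    ring
  · rw [(r₁.isEig hm γ.2).mult_mul_fun (r₂.isEig hm γ.2) (r₁.ne_zero hm ha₁ hb₁)
      (r₂.ne_zero hm ha₂ hb₂), χ₁, χ₂, chi_add]

theorem krel_uniq {f : FN N} {c d : AN N →+ ZMod m} (hc : KRel N m f c) (hd : KRel N m f d) :
    c = d := by
  have hm : 0 < m := Nat.pos_of_ne_zero (NeZero.ne m)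
  obtain ⟨hf0, -, a, b, H, ha, hb, e, r, χ⟩ := hc
  obtain ⟨-, -, a', b', H', ha', hb', e', r', χ'⟩ := hd
  refine chi_injective N m fun γ => ?_
  rw [← χ, ← χ']
  refine r.mult_eq r' hm ha hb ha' hb' ?_ γ.2
  apply Subtype.ext
  show (a : FN N) * (b' : FN N) = (a' : FN N) * (b : FN N)
  rw [← e, ← e']
  ring

theorem krel_pow {g : FN N} (hg : g ≠ 0) : KRel N m (g ^ m) 0 := by
  have hm : 0 < m := Nat.pos_of_ne_zero (NeZero.ne m)
  obtain ⟨a, b, hb, e⟩ := exists_mul_eq g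
  have hb' : b ≠ 0 := fun h => hb (by rw [h]; rfl)
  have ha : a ≠ 0 := by
    rintro rfl
    have h0 : g * (b : FN N) = 0 := by rw [e]; rfl
    rcases mul_eq_zero.mp h0 with h | h
    · exact hg h
    · exact hb h
  refine ⟨pow_ne_zero _ hg, E4.divBy_pow_self N m g, a ^ m, b ^ m,
    theta iotaBar N (a * b ^ (m - 1)), pow_ne_zero _ ha, pow_ne_zero _ hb', ?_, ?_, fun γ => ?_⟩
  · show g ^ m * (b : FN N) ^ m = (a : FN N) ^ m
    rw [← e, mul_pow]
  · unfold IsKummerRoot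
    rw [map_mul, map_pow, map_pow, map_pow, mul_pow, ← pow_mul, ← pow_mul, mul_comm (m - 1) m]
  · rw [chi_zero]
    exact mult_eq_one_of_compSL_eq (theta_ne_zero (mul_ne_zero ha (pow_ne_zero _ hb')))
      (compSL_theta_of_mem_Gamma0 γ.2 _)

theorem krel_inj [NeZero N] {f : FN N} (h : KRel N m f 0) : ∃ g : FN N, f = g ^ m := by
  have hm : 0 < m := Nat.pos_of_ne_zero (NeZero.ne m)
  obtain ⟨hf0, -, a, b, H, ha, hb, e, r, χ⟩ := h
  obtain ⟨y, hy⟩ := KummerKernel.exists_pow_eq_of_mult_eq_one hm hb r (fun γ hγ => by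
    have h1 := χ ⟨γ, hγ⟩
    rw [chi_zero] at h1
    exact h1)
  refine ⟨y, ?_⟩
  rw [hy, eq_div_iff (coe_ne_zero hb), e]

end KRelBasic

theorem krel_red {N p n : ℕ} [Fact p.Prime] {f : FN N} {c : AN N →+ ZMod (p ^ (n + 1))}
    (h : KRel N (p ^ (n + 1)) f c) : KRel N (p ^ n) f (BettiLimit.red (AN N) p n c) := by
  have hp : p.Prime := Fact.out
  have hm1 : 0 < p ^ (n + 1) := pow_pos hp.pos _
  have hm : 0 < p ^ n := pow_pos hp.pos _
  obtain ⟨hf0, hfd, a, b, H, ha, hb, e, r, χ⟩ := h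
  have key : p ^ (n + 1) - 1 = (p - 1) + p * (p ^ n - 1) := by
    have h1 : 1 ≤ p := hp.pos
    have h2 : 1 ≤ p ^ n := hm
    have h3 : 1 ≤ p ^ (n + 1) := hm1
    zify [h1, h2, h3]
    ring
  refine ⟨hf0, fun P => ?_, a * b ^ (p - 1), b ^ p, H ^ p,
    mul_ne_zero ha (pow_ne_zero _ hb), pow_ne_zero _ hb, ?_, ?_, fun γ => ?_⟩
  · refine dvd_trans ?_ (hfd P)
    push_cast
    exact pow_dvd_pow _ (Nat.le_succ n)
  · show f * (b : FN N) ^ p = (a : FN N) * (b : FN N) ^ (p - 1)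
    rw [← e]
    have h1 : p = (p - 1) + 1 := (Nat.sub_add_cancel hp.pos).symm
    conv_lhs => rw [h1, pow_succ]
    ring
  · unfold IsKummerRoot at r ⊢
    rw [← pow_mul, ← pow_succ', r, map_mul, map_pow, map_pow, mul_assoc, ← pow_mul, ← pow_add,
      key]
  · rw [(r.isEig hm1 γ.2).mult_pow_fun (r.ne_zero hm1 ha hb), χ, chi_red]

/-! ### The relation `KRel`: fields that use the bricks -/

section KRelBricks

variable {N : ℕ} {m : ℕ} [NeZero m]

/-- Field `gal`: Galois conjugates of Kummer functions are Kummer functions. -/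
theorem krel_gal (hParEll : Bricks.ParEll N) (σ : GQ) {f : FN N} {c : AN N →+ ZMod m}
    (h : KRel N m f c) : ∃ d : AN N →+ ZMod m, KRel N m (galF N σ f) d := by
  have hm : 0 < m := Nat.pos_of_ne_zero (NeZero.ne m)
  have hg0 : galF N σ f ≠ 0 := (map_ne_zero_iff _ (galF N σ).injective).mpr h.1
  have hgd : E4.DivBy N m (galF N σ f) := E4.DivBy.gal h.2.1 σ
  obtain ⟨a, b, hb, e⟩ := exists_mul_eq (galF N σ f)
  have hb' : b ≠ 0 := fun h0 => hb (by rw [h0]; rfl)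
  have ha : a ≠ 0 := by
    rintro rfl
    have h0 : galF N σ f * (b : FN N) = 0 := by rw [e]; rfl
    rcases mul_eq_zero.mp h0 with h1 | h1
    · exact hg0 h1
    · exact hb h1
  have hdiv : ∀ v : Place Kbar (FN N), (m : ℤ) ∣ v.ord (a : FN N) - v.ord (b : FN N) := by
    intro v
    have h1 := v.ord_mul hg0 hb
    rw [e] at h1
    rw [h1, add_sub_cancel_right]
    exact hgd v
  obtain ⟨H, hH⟩ := KummerKernel.exists_isKummerRoot (ι := iotaBar) hm ha hb' hdiv
  obtain ⟨d, hd⟩ := exists_chi N m (kummerChar hH hm ha hb') (kummerChar_pow hH hm ha hb')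
    (fun γ hγ => Units.ext (by
      rw [kummerChar_apply, Units.val_one]
      exact hParEll m hm a b H ha hb' hdiv hH γ hγ))
  exact ⟨d, hg0, hgd, a, b, H, ha, hb', e, hH, fun γ => by rw [hd γ, kummerChar_apply]⟩

/-- Field `ex`: every character is the Kummer character of a function. -/
theorem krel_ex (hSurj : Bricks.Surj N) (c : AN N →+ ZMod m) : ∃ f : FN N, KRel N m f c := by
  have hm : 0 < m := Nat.pos_of_ne_zero (NeZero.ne m)
  obtain ⟨f, a, b, H, hf0, hfd, ha, hb, e, hH, hχ⟩ := hSurj m hm (chiHom N m c)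
    (fun γ => Units.ext (by
      rw [Units.val_pow_eq_pow_val, chiHom_apply, chi_pow, Units.val_one]))
    (fun γ hγ => Units.ext (by rw [chiHom_apply, chi_parEll N m c hγ, Units.val_one]))
  exact ⟨f, hf0, hfd, a, b, H, ha, hb, e, hH, fun γ => by rw [hχ γ, chiHom_apply]⟩

/-- Field `hecke`: the Kummer character of `T_ℓ f` is `c ∘ τ_ℓ`. -/
theorem krel_hecke [NeZero N] (hTHom : Bricks.THomParEll N) {ℓ : ℕ} (hℓ : ℓ.Prime)
    (hℓN : ¬ ℓ ∣ N)
    (hHD : E4.HeckeDiv N ℓ) {f : FN N} {c : AN N →+ ZMod m} (h : KRel N m f c) :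
    KRel N m (E4.heckeFb N ℓ f) (c.comp (tau N ℓ)) := by
  have hm : 0 < m := Nat.pos_of_ne_zero (NeZero.ne m)
  have : NeZero ℓ := ⟨hℓ.ne_zero⟩
  obtain ⟨hf0, hfd, a, b, H, ha, hb, e, r, χ⟩ := h
  have hfab : f = (a : FN N) / (b : FN N) := by rw [eq_div_iff (coe_ne_zero hb), e]
  have hz := E4.zetaU_spec hℓ.pos
  obtain ⟨a', b', H', ha', hb', e', r', χ'⟩ :=
    KummerHecke.exists_isKummerRoot_heckeFN (ι := iotaBar) hm hℓ hℓN hz ha hb r
  have hT : E4.heckeFb N ℓ f = KummerHecke.heckeFN hℓ hℓN hz f :=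
    Subtype.ext (E4.coe_heckeFb N hℓ hℓN f)
  have e'' : E4.heckeFb N ℓ f * (b' : FN N) = (a' : FN N) := by
    rw [hT, hfab]
    exact e'
  have hT0 : E4.heckeFb N ℓ f ≠ 0 := by
    intro h0
    rw [h0, zero_mul] at e''
    exact coe_ne_zero ha' e''.symm
  refine ⟨hT0, hHD m f hf0 hfd, a', b', H', ha', hb', e'', r', fun γ => ?_⟩
  rw [χ' γ, chi_comp_tau N m hℓ hℓN (hTHom ℓ hℓ hℓN) c γ]
  exact Finset.prod_congr rfl fun x _ => χ _

end KRelBricks

end Fermat.Agent.S30.Producer.Glue
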