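/-
S30 PRODUCER brick `Prod.ParEll` (tasks row 235, helper1).

The multiplier of a Kummer root is trivial on every `γ ∈ Γ₀(N)` with `tr(γ)² ≤ 4`
(`-1`, elliptic and parabolic elements):

* `tr² < 4`: `γ` has a fixed point in `ℍ` (`exists_fixed_of_trace_sq_lt`), then
  `KummerChar.mult_eq_one_of_fixed`;
* `tr² = 4`: `γ = ± δ T^n δ⁻¹` (`S21.exists_conj_upper`, `S21.upper_eq_T_zpow`), then
  `KummerChar.mult_eq_one_of_parabolic` / `mult_eq_one_of_neg_parabolic`.
-/
import Mathlib
import Fermat.Agent.S30.Producer.Bricks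
import Fermat.Agent.S30.KummerChar.Elliptic
import Fermat.Agent.S30.KummerChar.Cusp
import Fermat.Agent.S21.Parabolic

set_option autoImplicit false

noncomputable section

open scoped MatrixGroups
open CongruenceSubgroup ModularCurve AlgebraicCurve UpperHalfPlane
open Fermat.Agent.S24.HolH Fermat.Agent.S24.Theta Fermat.Agent.S24.Modular
open Fermat.Agent.S30.KummerChar

namespace Fermat.Agent.S30.Producer.ParEllBrick

/-- An element of `SL(2, ℤ)` with `tr² < 4` has nonzero lower left entry. -/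
theorem lower_left_ne_zero_of_trace_sq_lt (g : SL(2, ℤ)) (h : g.1.trace ^ 2 < 4) :
    g 1 0 ≠ 0 := by
  intro hc
  have hdet : g 0 0 * g 1 1 - g 0 1 * g 1 0 = 1 := by
    have := g.det_coe
    rwa [Matrix.det_fin_two] at this
  rw [hc, mul_zero, sub_zero] at hdet
  have htr : (g 0 0 + g 1 1) ^ 2 < 4 := by
    rwa [Matrix.trace_fin_two] at h
  rcases Int.eq_one_or_neg_one_of_mul_eq_one' hdet with ⟨h0, h1⟩ | ⟨h0, h1⟩
  · rw [h0, h1] at htr
    norm_num at htr
  · rw [h0, h1] at htr
    norm_num at htr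

/-- **Elliptic elements have a fixed point.** An element of `SL(2, ℤ)` with `tr² < 4` fixes a
point of the upper half plane. -/
theorem exists_fixed_of_trace_sq_lt (g : SL(2, ℤ)) (h : g.1.trace ^ 2 < 4) :
    ∃ τ : ℍ, g • τ = τ := by
  have hc : g 1 0 ≠ 0 := lower_left_ne_zero_of_trace_sq_lt g h
  have hdet : g 0 0 * g 1 1 - g 0 1 * g 1 0 = 1 := by
    have := g.det_coe
    rwa [Matrix.det_fin_two] at this
  have htr : (g 0 0 + g 1 1) ^ 2 < 4 := by
    rwa [Matrix.trace_fin_two] at h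
  -- real entries
  set A : ℝ := (g 0 0 : ℝ) with hA
  set B : ℝ := (g 0 1 : ℝ) with hB
  set C : ℝ := (g 1 0 : ℝ) with hC
  set D : ℝ := (g 1 1 : ℝ) with hD
  have hdetR : A * D - B * C = 1 := by
    rw [hA, hB, hC, hD]
    exact_mod_cast hdet
  have htrR : (A + D) ^ 2 < 4 := by
    rw [hA, hD]
    exact_mod_cast htr
  have hC0 : C ≠ 0 := by
    rw [hC]
    exact_mod_cast hc
  have hCabs : 0 < |C| := abs_pos.mpr hC0
  set s : ℝ := Real.sqrt (4 - (A + D) ^ 2) with hs
  have hs2 : s ^ 2 = 4 - (A + D) ^ 2 := Real.sq_sqrt (by linarith)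
  have hspos : 0 < s := Real.sqrt_pos.mpr (by linarith)
  set x : ℝ := (A - D) / (2 * C) with hx
  set y : ℝ := s / (2 * |C|) with hy
  have hypos : 0 < y := div_pos hspos (by positivity)
  have hx2 : 2 * C * x = A - D := by
    rw [hx]
    field_simp
  have hy2 : 4 * C ^ 2 * y ^ 2 = s ^ 2 := by
    rw [hy, div_pow, mul_pow, sq_abs]
    field_simp
    norm_num
  let τ : ℍ := UpperHalfPlane.mk ⟨x, y⟩ hypos
  refine ⟨τ, ?_⟩
  apply UpperHalfPlane.ext
  rw [UpperHalfPlane.coe_specialLinearGroup_apply]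
  have hτ : (τ : ℂ) = ⟨x, y⟩ := rfl
  have hden : ((algebraMap ℤ ℝ (g 1 0) : ℝ) : ℂ) * (τ : ℂ) + ((algebraMap ℤ ℝ (g 1 1) : ℝ) : ℂ)
      ≠ 0 := by
    intro h0
    have him := congrArg Complex.im h0
    rw [hτ] at him
    simp only [Complex.add_im, Complex.mul_im, Complex.ofReal_re, Complex.ofReal_im, zero_mul,
      add_zero, Complex.zero_im] at him
    have : C * y = 0 := him
    rcases mul_eq_zero.mp this with h1 | h1
    · exact hC0 h1
    · exact hypos.ne' h1
  rw [div_eq_iff hden, hτ]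
  -- the quadratic equation `c τ² + (d - a) τ - b = 0`
  have hre : A * x + B = x * (C * x + D) - y * (C * y) := by
    have h1 : C * (A * x + B - (x * (C * x + D) - y * (C * y))) * 4 = 0 := by
      have e1 : C * (A * x + B - (x * (C * x + D) - y * (C * y))) * 4
          = 2 * (A - D) * (2 * C * x) + 4 * B * C - (2 * C * x) ^ 2 + 4 * C ^ 2 * y ^ 2 := by
        ring
      rw [e1, hx2, hy2, hs2]
      linear_combination (-4 : ℝ) * hdetR
    have h2 : A * x + B - (x * (C * x + D) - y * (C * y)) = 0 := by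
      rcases mul_eq_zero.mp h1 with h3 | h3
      · rcases mul_eq_zero.mp h3 with h4 | h4
        · exact absurd h4 hC0
        · exact h4
      · norm_num at h3
    linarith
  have him : A * y = x * (C * y) + y * (C * x + D) := by
    have e1 : x * (C * y) + y * (C * x + D) = (2 * C * x) * y + D * y := by ring
    rw [e1, hx2]
    ring
  apply Complex.ext
  · simp only [Complex.add_re, Complex.mul_re, Complex.ofReal_re, Complex.ofReal_im, zero_mul,
      sub_zero, Complex.add_im, Complex.mul_im, add_zero]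
    exact hre
  · simp only [Complex.add_re, Complex.mul_re, Complex.ofReal_re, Complex.ofReal_im, zero_mul,
      sub_zero, Complex.add_im, Complex.mul_im, add_zero]
    exact him

/-- **Brick `Prod.ParEll`.** The multiplier of a Kummer root is trivial on the elements of
`Γ₀(N)` with `tr² ≤ 4`. -/
theorem parEll (N : ℕ) [NeZero N] : Bricks.ParEll N := by
  intro m hm a b H ha hb hdiv hH γ hγ
  have htr : ((γ : SL(2, ℤ)) : Matrix (Fin 2) (Fin 2) ℤ).trace ^ 2 ≤ 4 := hγ
  rcases lt_or_eq_of_le htr with hlt | heq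
  · -- elliptic: a fixed point in `ℍ`
    obtain ⟨τ, hτ⟩ := exists_fixed_of_trace_sq_lt (γ : SL(2, ℤ)) hlt
    exact mult_eq_one_of_fixed hm ha hb hdiv hH γ.2 hτ
  · -- parabolic or `±1`
    obtain ⟨δ, hδ⟩ := Fermat.Agent.S21.exists_conj_upper (γ : SL(2, ℤ)) heq
    obtain ⟨n, hn⟩ := Fermat.Agent.S21.upper_eq_T_zpow _ hδ
    have hγeq : (γ : SL(2, ℤ)) = δ * (δ⁻¹ * (γ : SL(2, ℤ)) * δ) * δ⁻¹ := by group
    rcases hn with hn | hn
    · have h1 : (γ : SL(2, ℤ)) = δ * ModularGroup.T ^ n * δ⁻¹ := by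
        rw [← hn]
        exact hγeq
      have hmem : δ * ModularGroup.T ^ n * δ⁻¹ ∈ Gamma0 N := by
        rw [← h1]
        exact γ.2
      rw [h1]
      exact mult_eq_one_of_parabolic hm ha hb hdiv hH δ n hmem
    · have h1 : (γ : SL(2, ℤ)) = -(δ * ModularGroup.T ^ n * δ⁻¹) := by
        have h2 : δ * (-ModularGroup.T ^ n) * δ⁻¹ = -(δ * ModularGroup.T ^ n * δ⁻¹) := by
          rw [mul_neg, neg_mul]
        rw [← h2, ← hn]
        exact hγeq
      have hmem : -(δ * ModularGroup.T ^ n * δ⁻¹) ∈ Gamma0 N := by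
        rw [← h1]
        exact γ.2
      rw [h1]
      exact mult_eq_one_of_neg_parabolic hm ha hb hdiv hH δ n hmem

end Fermat.Agent.S30.Producer.ParEllBrick
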