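/-
S30 PRODUCER: the assembly (helper13, task 245).

  `Bricks.Surj N` + `Bricks.K1 N`  ⟹  `KummerSystem N p`  ⟹  `Nonempty (ESData N p)`.

Objects (`Producer/Objects.lean`): `A := AN N`, `τ := tau N`, `R n f c := KRel N (p ^ n) f c`;
`heckeF := E4.heckeFb N` (`E4/Fields.lean`).  Every field is a landed theorem:

* `ex`                      : `Glue.krel_ex` from the brick `Surj`;
* `mul uniq inj pow red`    : `Glue.krel_*` (helper162);
* `gal`                     : `Glue.krel_gal` + `ParEllBrick.parEll` (helper1);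
* `hecke`                   : `Glue.krel_hecke` + `BettiABricks.tHomParEll` (helper172)
                              + `TransferTrivialProof.heckeDiv` (helper51, helper206);
* `hecke_gal cont unr es`   : `E4/Fields.lean` (helper85) from the brick `K1`;
* `τ_comm occ`              : `BettiABricks.tauComm`, `BettiABricks.period` (helper172, helper201).
-/
import Mathlib
import Fermat.Agent.S30.Producer.Glue
import Fermat.Agent.S30.Producer.BettiABricks
import Fermat.Agent.S30.Producer.ParEllBrick
import Fermat.Agent.S30.Producer.ToESData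
import Fermat.Agent.S30.TransferTrivial
import Fermat.Agent.S30.E4.Fields

set_option autoImplicit false
set_option linter.dupNamespace false

noncomputable section

open scoped MatrixGroups
open CongruenceSubgroup ModularCurve AlgebraicCurve UpperHalfPlane

namespace Fermat.Agent.S30.Producer.Assembly

/-- The concrete Kummer system of level `N` at `p`, from the two outstanding bricks. -/
def kummerSystem (N p : ℕ) [NeZero N] [Fact p.Prime]
    (hSurj : Bricks.Surj N) (hK1 : Bricks.K1 N) : KummerSystem N p where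
  A := AN N
  fgA := fg_AN N
  τ := tau N
  heckeF := E4.heckeFb N
  R n f c := KRel N (p ^ n) f c
  ne_zero h := h.1
  ex _ c := Glue.krel_ex hSurj c
  mul hf hg := Glue.krel_mul hf hg
  uniq hc hd := Glue.krel_uniq hc hd
  inj h := Glue.krel_inj h
  pow _ _ hg := Glue.krel_pow hg
  red h := Glue.krel_red h
  gal σ _ _ _ h := Glue.krel_gal (ParEllBrick.parEll N) σ h
  hecke hℓ _ _ _ h :=
    Glue.krel_hecke (BettiABricks.tHomParEll N) hℓ.1 hℓ.2.1
      (TransferTrivialProof.heckeDiv N _) h
  hecke_gal hℓ σ _ f _ _ := E4.heckeFb_galF N hℓ.1 hℓ.2.1 σ f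
  cont := E4.galF_eq_self_of_fixes N
  unr q hq hqN hqp P hP σ hσ _ _ _ h := E4.unr_field N p hK1 q hq hqN hqp P hP σ hσ h.1 h.2.1
  es ℓ hℓ B hB σ hσ _ _ _ h :=
    E4.es_field N p hK1 (fun ℓ' _ _ => TransferTrivialProof.heckeDiv N ℓ') ℓ hℓ B hB σ hσ
      h.1 h.2.1
  τ_comm ℓ ℓ' hℓ hℓN _ hℓ' hℓ'N _ c := BettiABricks.tauComm N ℓ ℓ' hℓ hℓN hℓ' hℓ'N c
  occ := by
    obtain ⟨P, hadd, hinj, hT⟩ := BettiABricks.period N
    exact ⟨P, hadd, hinj, fun ℓ hℓ hℓN _ f a => hT ℓ hℓ hℓN f a⟩

/-- **The producer**, modulo the bricks `Surj` (Eisenstein series with character + descent) and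
`K1` (the Kummer statement at the primes `q ∤ N`). -/
theorem nonempty_esData_of_bricks (N p : ℕ) [NeZero N] [Fact p.Prime]
    (hSurj : Bricks.Surj N) (hK1 : Bricks.K1 N) : Nonempty (ESData N p) :=
  (kummerSystem N p hSurj hK1).nonempty_esData

end Fermat.Agent.S30.Producer.Assembly
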