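/-
S30 PRODUCER: the bridge between the two vocabularies of the Betti side (helper13).

* (B)  `Producer/Objects.lean` + `Producer/Bricks.lean`: `parEll N` (`tr² ≤ 4`), `AN N`, `proj`,
       `tau`, `Bricks.THomParEll`, `Bricks.Surj`, `Bricks.TauComm`, ...
* (E5) `E5/Defs.lean` + `E5/Plan.lean`: `E5.IsSpecial` (fixed point or `tr² = 4`), `E5.A N`,
       `E5.cls`, `E5.τ`, `E5.TauStatement`, `E5.ExRootStatement`, ...

They describe the same objects:

* `isSpecial_iff` : `E5.IsSpecial γ ↔ tr(γ)² ≤ 4`;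
* `toB : E5.A N →+ AN N`, `toE : AN N →+ E5.A N`, mutually inverse, commuting with `cls`/`proj`;
* `tauStatement_of_tHomParEll`, `tHomParEll_of_tauStatement`;
* `tau_comm_E5`, `tauComm_B` : commutation of the Hecke correspondences on integral characters,
  from `BettiHecke.tHom_comm_int`;
* `surj_of_exRoot`, `exRoot_of_surj`.
-/
import Mathlib
import Fermat.Agent.S30.Producer.Bricks
import Fermat.Agent.S30.Producer.ParEllBrick
import Fermat.Agent.S30.E5.Plan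
import Fermat.Agent.S30.BettiHecke.Comm
import Fermat.Agent.S30.KummerConverse

set_option autoImplicit false
set_option linter.dupNamespace false

noncomputable section

open scoped MatrixGroups
open CongruenceSubgroup ModularCurve AlgebraicCurve UpperHalfPlane
open Fermat.Agent.S24.HolH Fermat.Agent.S24.Theta Fermat.Agent.S24.Modular
open Fermat.Agent.S30.KummerChar

namespace Fermat.Agent.S30.Producer.Bridge

/-! ### `special ↔ tr² ≤ 4` -/

/-- An element of `SL(2, ℤ)` with a fixed point in the upper half plane has `tr² ≤ 4`. -/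
theorem trace_sq_le_of_fixed (g : SL(2, ℤ)) (τ : ℍ) (h : g • τ = τ) :
    (g : Matrix (Fin 2) (Fin 2) ℤ).trace ^ 2 ≤ 4 := by
  have hdet : g 0 0 * g 1 1 - g 0 1 * g 1 0 = 1 := by
    have := g.det_coe
    rwa [Matrix.det_fin_two] at this
  rw [Matrix.trace_fin_two]
  set A : ℝ := (g 0 0 : ℝ) with hA
  set B : ℝ := (g 0 1 : ℝ) with hB
  set C : ℝ := (g 1 0 : ℝ) with hC
  set D : ℝ := (g 1 1 : ℝ) with hD
  have hdetR : A * D - B * C = 1 := by
    rw [hA, hB, hC, hD]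
    exact_mod_cast hdet
  have hy : 0 < (τ : ℂ).im := τ.im_pos
  have h1 : ((g • τ : ℍ) : ℂ) = (τ : ℂ) := by rw [h]
  rw [UpperHalfPlane.coe_specialLinearGroup_apply] at h1
  have hden : ((algebraMap ℤ ℝ (g 1 0) : ℝ) : ℂ) * (τ : ℂ) + ((algebraMap ℤ ℝ (g 1 1) : ℝ) : ℂ)
      ≠ 0 := by
    intro h0
    rw [h0, div_zero] at h1
    rw [← h1] at hy
    simp at hy
  rw [div_eq_iff hden] at h1
  set x : ℝ := (τ : ℂ).re with hx
  set y : ℝ := (τ : ℂ).im with hy0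
  have hre := congrArg Complex.re h1
  have him := congrArg Complex.im h1
  simp only [Complex.add_re, Complex.mul_re, Complex.ofReal_re, Complex.ofReal_im, zero_mul,
    sub_zero, Complex.add_im, Complex.mul_im, add_zero] at hre him
  have hre' : A * x + B = x * (C * x + D) - y * (C * y) := hre
  have him' : A * y = x * (C * y) + y * (C * x + D) := him
  have hy' : 0 < y := hy
  have e1 : A - (2 * C * x + D) = 0 := by
    have : y * (A - (2 * C * x + D)) = 0 := by linear_combination him'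
    rcases mul_eq_zero.mp this with h0 | h0
    · exact absurd h0 hy'.ne'
    · exact h0
  have key : (A + D) ^ 2 = 4 - 4 * (C * y) ^ 2 := by
    linear_combination 4 * hdetR + 4 * C * hre' + (A - D - 2 * C * x) * e1
  have hR : (A + D) ^ 2 ≤ 4 := by
    rw [key]
    nlinarith [sq_nonneg (C * y)]
  have hR' : (((g 0 0 + g 1 1) ^ 2 : ℤ) : ℝ) ≤ ((4 : ℤ) : ℝ) := by
    push_cast
    exact hR
  exact_mod_cast hR'

/-- `special ↔ tr² ≤ 4`. -/
theorem isSpecial_iff (g : SL(2, ℤ)) :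
    E5.IsSpecial g ↔ (g : Matrix (Fin 2) (Fin 2) ℤ).trace ^ 2 ≤ 4 := by
  constructor
  · rintro (⟨τ, hτ⟩ | h)
    · exact trace_sq_le_of_fixed g τ hτ
    · exact h.le
  · intro h
    rcases h.lt_or_eq with hlt | heq
    · exact Or.inl (ParEllBrick.exists_fixed_of_trace_sq_lt g hlt)
    · exact Or.inr heq

theorem isSpecial_iff_mem_parEll {N : ℕ} (γ : Gamma0 N) :
    E5.IsSpecial (γ : SL(2, ℤ)) ↔ γ ∈ parEll N := isSpecial_iff _

/-- Conjugates of `T ^ n` have trace `2`. -/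
theorem trace_conj_T_zpow (g : SL(2, ℤ)) (n : ℤ) :
    ((g * ModularGroup.T ^ n * g⁻¹ : SL(2, ℤ)) : Matrix (Fin 2) (Fin 2) ℤ).trace = 2 := by
  rw [Matrix.SpecialLinearGroup.coe_mul, Matrix.SpecialLinearGroup.coe_mul, Matrix.trace_mul_comm,
    ← Matrix.mul_assoc, ← Matrix.SpecialLinearGroup.coe_mul, inv_mul_cancel,
    Matrix.SpecialLinearGroup.coe_one, Matrix.one_mul, ModularGroup.coe_T_zpow,
    Matrix.trace_fin_two]
  simp

theorem isSpecial_conj_T_zpow (g : SL(2, ℤ)) (n : ℤ) :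
    E5.IsSpecial (g * ModularGroup.T ^ n * g⁻¹) :=
  Or.inr (by rw [trace_conj_T_zpow]; norm_num)

/-! ### `E5.A N ≃ AN N` -/

variable (N : ℕ)

/-- `E5.A N → AN N`. -/
def toB : E5.A N →+ AN N :=
  E5.lift N (proj N) fun γ hγ => proj_parEll ((isSpecial_iff_mem_parEll γ).mp hγ)

/-- `AN N → E5.A N`. -/
def toE : AN N →+ E5.A N :=
  lift (E5.cls N) fun γ hγ => E5.cls_eq_zero_of_special N ((isSpecial_iff_mem_parEll γ).mpr hγ)

@[simp]
theorem toB_cls (x : Additive (Gamma0 N)) : toB N (E5.cls N x) = proj N x :=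
  E5.lift_cls N _ _ x

@[simp]
theorem toE_proj (x : Additive (Gamma0 N)) : toE N (proj N x) = E5.cls N x :=
  lift_proj _ _ x

theorem toB_comp_cls : (toB N).comp (E5.cls N) = proj N := AddMonoidHom.ext (toB_cls N)

theorem toE_comp_proj : (toE N).comp (proj N) = E5.cls N := AddMonoidHom.ext (toE_proj N)

@[simp]
theorem toE_toB (a : E5.A N) : toE N (toB N a) = a := by
  obtain ⟨x, rfl⟩ := E5.cls_surjective N a
  rw [toB_cls, toE_proj]

@[simp]
theorem toB_toE (a : AN N) : toB N (toE N a) = a := by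
  obtain ⟨x, rfl⟩ := proj_surjective N a
  rw [toE_proj, toB_cls]

/-! ### The transfer in both vocabularies -/

variable {N}

theorem tauHom_eq {ℓ : ℕ} [NeZero ℓ] (hℓ : ℓ.Prime) (hℓN : ¬ ℓ ∣ N) (γ : Gamma0 N) :
    tauHom N hℓ hℓN (Additive.ofMul γ) =
      ∑ x : OnePoint (ZMod ℓ), proj N (Additive.ofMul (BettiHecke.coc hℓ hℓN γ x)) := rfl

/-- (B) ⇒ (E5): the cycle lemma in the `parEll` form gives the endomorphism `τ_ℓ` of `E5.A N`. -/
theorem tauStatement_of_tHomParEll (h : Bricks.THomParEll N) : E5.TauStatement N := by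
  intro ℓ _ hℓ hℓN
  refine ⟨(toE N).comp ((tau N ℓ).comp (toB N)), fun γ => ?_⟩
  show toE N (tau N ℓ (toB N (E5.cls N (Additive.ofMul γ)))) = _
  rw [toB_cls, tau_proj N hℓ hℓN (h ℓ hℓ hℓN), tauHom_eq, map_sum]
  exact Finset.sum_congr rfl fun x _ => toE_proj N _

/-- (E5) ⇒ (B). -/
theorem tHomParEll_of_tauStatement (h : E5.TauStatement N) : Bricks.THomParEll N := by
  intro ℓ hℓ hℓN γ hγ
  haveI : NeZero ℓ := ⟨hℓ.ne_zero⟩
  obtain ⟨t, ht⟩ := h ℓ hℓ hℓN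
  have h0 : E5.cls N (Additive.ofMul γ) = 0 :=
    E5.cls_eq_zero_of_special N ((isSpecial_iff_mem_parEll γ).mpr hγ)
  have h1 := ht γ
  rw [h0, map_zero] at h1
  rw [tauHom_eq]
  have h2 := congrArg (toB N) h1
  rw [map_zero, map_sum] at h2
  rw [h2]
  exact Finset.sum_congr rfl fun x _ => (toB_cls N _).symm

/-- `E5.τ` on classes, given the cycle lemma. -/
theorem tauE_cls (h : E5.TauStatement N) {ℓ : ℕ} [NeZero ℓ] (hℓ : ℓ.Prime) (hℓN : ¬ ℓ ∣ N)
    (γ : Gamma0 N) :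
    E5.τ N ℓ (E5.cls N (Additive.ofMul γ)) =
      ∑ x : OnePoint (ZMod ℓ), E5.cls N (Additive.ofMul (BettiHecke.coc hℓ hℓN γ x)) :=
  E5.τ_spec N hℓ hℓN (h ℓ hℓ hℓN) γ

/-- Pull-back of `c ∘ τ_ℓ` to `Γ₀(N)` is the Hecke operator `tHom` applied to `c ∘ cls`. -/
theorem comp_tauE_comp_cls (h : E5.TauStatement N) {ℓ : ℕ} [NeZero ℓ] (hℓ : ℓ.Prime)
    (hℓN : ¬ ℓ ∣ N) {M : Type*} [AddCommGroup M] (c : E5.A N →+ M) :
    (c.comp (E5.τ N ℓ)).comp (E5.cls N) = BettiHecke.tHom M hℓ hℓN (c.comp (E5.cls N)) := by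
  refine AddMonoidHom.ext fun x => ?_
  obtain ⟨γ, rfl⟩ : ∃ γ : Gamma0 N, Additive.ofMul γ = x := ⟨Additive.toMul x, rfl⟩
  show c (E5.τ N ℓ (E5.cls N (Additive.ofMul γ))) = _
  rw [tauE_cls h hℓ hℓN, map_sum, BettiHecke.tHom_apply]
  rfl

theorem comp_tau_comp_proj (h : Bricks.THomParEll N) {ℓ : ℕ} [NeZero ℓ] (hℓ : ℓ.Prime)
    (hℓN : ¬ ℓ ∣ N) {M : Type*} [AddCommGroup M] (c : AN N →+ M) :
    (c.comp (tau N ℓ)).comp (proj N) = BettiHecke.tHom M hℓ hℓN (c.comp (proj N)) := by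
  refine AddMonoidHom.ext fun x => ?_
  obtain ⟨γ, rfl⟩ : ∃ γ : Gamma0 N, Additive.ofMul γ = x := ⟨Additive.toMul x, rfl⟩
  show c (tau N ℓ (proj N (Additive.ofMul γ))) = _
  rw [tau_proj N hℓ hℓN (h ℓ hℓ hℓN), tauHom_eq, map_sum, BettiHecke.tHom_apply]
  rfl

/-- **τ-commutation (E5 vocabulary)** on integral characters. -/
theorem tau_comm_E5 [NeZero N] (h : E5.TauStatement N) (ℓ ℓ' : ℕ) (hℓ : ℓ.Prime) (hℓN : ¬ ℓ ∣ N)
    (hℓ' : ℓ'.Prime) (hℓ'N : ¬ ℓ' ∣ N) (c : E5.A N →+ ℤ) :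
    (c.comp (E5.τ N ℓ)).comp (E5.τ N ℓ') = (c.comp (E5.τ N ℓ')).comp (E5.τ N ℓ) := by
  haveI : NeZero ℓ := ⟨hℓ.ne_zero⟩
  haveI : NeZero ℓ' := ⟨hℓ'.ne_zero⟩
  have hpar : ModularCurve.Period.IsParabolicHom (Gamma0 N) (c.comp (E5.cls N)) := by
    intro γ hγ
    show c (E5.cls N (Additive.ofMul γ)) = 0
    rw [E5.cls_eq_zero_of_special N (Or.inr hγ), map_zero]
  apply E5.hom_ext N
  intro γ
  have e1 := comp_tauE_comp_cls h hℓ' hℓ'N (c.comp (E5.τ N ℓ))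
  have e2 := comp_tauE_comp_cls h hℓ hℓN (c.comp (E5.τ N ℓ'))
  rw [comp_tauE_comp_cls h hℓ hℓN c] at e1
  rw [comp_tauE_comp_cls h hℓ' hℓ'N c] at e2
  have e3 := BettiHecke.tHom_comm_int hℓ hℓN hℓ' hℓ'N _ hpar
  have e4 : ((c.comp (E5.τ N ℓ)).comp (E5.τ N ℓ')).comp (E5.cls N) =
      ((c.comp (E5.τ N ℓ')).comp (E5.τ N ℓ)).comp (E5.cls N) := by
    rw [e1, e2, e3]
  exact congrArg (fun φ : Additive (Gamma0 N) →+ ℤ => φ (Additive.ofMul γ)) e4

/-- **τ-commutation (B vocabulary)** on integral characters: the brick `Prod.TauComm`. -/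
theorem tauComm_B [NeZero N] (h : Bricks.THomParEll N) : Bricks.TauComm N := by
  intro ℓ ℓ' hℓ hℓN hℓ' hℓ'N c
  haveI : NeZero ℓ := ⟨hℓ.ne_zero⟩
  haveI : NeZero ℓ' := ⟨hℓ'.ne_zero⟩
  have hpar : ModularCurve.Period.IsParabolicHom (Gamma0 N) (c.comp (proj N)) := by
    intro γ hγ
    show c (proj N (Additive.ofMul γ)) = 0
    rw [proj_parEll (show γ ∈ parEll N from hγ.le), map_zero]
  apply hom_ext
  intro γ
  have e1 := comp_tau_comp_proj h hℓ' hℓ'N (c.comp (tau N ℓ))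
  have e2 := comp_tau_comp_proj h hℓ hℓN (c.comp (tau N ℓ'))
  rw [comp_tau_comp_proj h hℓ hℓN c] at e1
  rw [comp_tau_comp_proj h hℓ' hℓ'N c] at e2
  have e3 := BettiHecke.tHom_comm_int hℓ hℓN hℓ' hℓ'N _ hpar
  have e4 : ((c.comp (tau N ℓ)).comp (tau N ℓ')).comp (proj N) =
      ((c.comp (tau N ℓ')).comp (tau N ℓ)).comp (proj N) := by
    rw [e1, e2, e3]
  exact congrArg (fun φ : Additive (Gamma0 N) →+ ℤ => φ (Additive.ofMul γ)) e4

/-! ### Surjectivity of the Kummer character in both vocabularies -/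

/-- (E5) ⇒ (B): `ExRoot` (+ the landed Kummer converse) gives the brick `Prod.Surj`. -/
theorem surj_of_exRoot [NeZero N] (h : ∀ (m : ℕ) [NeZero m], E5.ExRootStatement N m) :
    Bricks.Surj N := by
  intro m hm φ hφm hφ
  haveI : NeZero m := ⟨hm.ne'⟩
  have hsp : ∀ γ : Gamma0 N, E5.IsSpecial (γ : SL(2, ℤ)) → φ γ = 1 := fun γ hγ =>
    hφ γ ((isSpecial_iff_mem_parEll γ).mp hγ)
  obtain ⟨a, b, H, ha, hb, hH, hmult⟩ := h m φ hφm hsp
  have hb' : (b : FN N) ≠ 0 := fun h0 => hb (Subtype.ext h0)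
  have ha' : (a : FN N) ≠ 0 := fun h0 => ha (Subtype.ext h0)
  have hab : (a : FN N) / (b : FN N) * (b : FN N) = (a : FN N) := div_mul_cancel₀ _ hb'
  refine ⟨(a : FN N) / (b : FN N), a, b, H, div_ne_zero ha' hb', ?_, ha, hb, hab, hH, hmult⟩
  refine KummerConverse.divBy_of_isKummerRoot hm ha hb hH ?_ ?_ _ hab
  · intro γ hγ hfix
    have := hmult ⟨γ, hγ⟩
    rw [this, hsp ⟨γ, hγ⟩ (Or.inl hfix)]
    rfl
  · intro γ hγ g n hγg
    have h1 := hmult ⟨γ, hγ⟩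
    have h2 : E5.IsSpecial (((⟨γ, hγ⟩ : Gamma0 N) : SL(2, ℤ))) := by
      show E5.IsSpecial γ
      rw [hγg]
      exact isSpecial_conj_T_zpow g n
    rw [h1, hsp ⟨γ, hγ⟩ h2]
    rfl

/-- (B) ⇒ (E5). -/
theorem exRoot_of_surj (h : Bricks.Surj N) (m : ℕ) [NeZero m] : E5.ExRootStatement N m := by
  intro χ hχm hχ
  obtain ⟨f, a, b, H, -, -, ha, hb, -, hH, hmult⟩ := h m (Nat.pos_of_ne_zero (NeZero.ne m)) χ hχm
    fun γ hγ => hχ γ ((isSpecial_iff_mem_parEll γ).mpr hγ)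
  exact ⟨a, b, H, ha, hb, hH, hmult⟩

end Fermat.Agent.S30.Producer.Bridge
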