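/-
S30 PRODUCER assembly (helper13): `KummerSystem N p → Nonempty (ESData N p)`.

The Galois action on `Hom(A, ℤ/p^n)` is transported from the action on functions:
`act n σ c` is the character of `galF σ f` for any Kummer function `f` with character `c`.
Everything is then fed to the landed torsion-robust limit `BettiLimit.nonempty_esData`.
-/
import Mathlib
import Fermat.Agent.S30.Producer.Defs

set_option autoImplicit false

namespace Fermat.Agent.S30.Producer

open ModularCurve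

namespace KummerSystem

variable {N p : ℕ} [NeZero N] [hp : Fact p.Prime] (K : KummerSystem N p)

omit [NeZero N] in
theorem galF_ne_zero (σ : GQ) {f : FN N} (hf : f ≠ 0) : galF N σ f ≠ 0 := by
  intro h
  exact hf ((galF N σ).injective (h.trans (map_zero _).symm))

theorem R_one (n : ℕ) : K.R n 1 0 := by
  have h := K.pow n (g := (1 : FN N)) one_ne_zero
  rwa [one_pow] at h

theorem R_mul_pow {n : ℕ} {f g : FN N} {c : K.A →+ ZMod (p ^ n)} (hf : K.R n f c)
    (hg : g ≠ 0) : K.R n (f * g ^ (p ^ n)) c := by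
  have h := K.mul hf (K.pow n hg)
  rwa [add_zero] at h

theorem R_inv {n : ℕ} {f : FN N} {c : K.A →+ ZMod (p ^ n)} (hf : K.R n f c) :
    K.R n f⁻¹ (-c) := by
  obtain ⟨g, hg⟩ := K.ex n (-c)
  have hfg := K.mul hf hg
  rw [add_neg_cancel] at hfg
  obtain ⟨h, hh⟩ := K.inj hfg
  have hf0 := K.ne_zero hf
  have hg0 := K.ne_zero hg
  have hh0 : h ≠ 0 := by
    intro h0
    have : f * g = 0 := by
      rw [hh, h0, zero_pow (pow_ne_zero n hp.out.ne_zero)]
    exact mul_ne_zero hf0 hg0 this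
  have key : f⁻¹ = g * (h⁻¹) ^ (p ^ n) := by
    rw [inv_pow, ← hh]
    field_simp
  rw [key]
  exact K.R_mul_pow hg (inv_ne_zero hh0)

theorem exists_eq_mul_pow {n : ℕ} {f f' : FN N} {c : K.A →+ ZMod (p ^ n)} (hf : K.R n f c)
    (hf' : K.R n f' c) : ∃ h : FN N, h ≠ 0 ∧ f' = f * h ^ (p ^ n) := by
  have h1 := K.mul hf' (K.R_inv hf)
  rw [add_neg_cancel] at h1
  obtain ⟨h, hh⟩ := K.inj h1
  have hf0 := K.ne_zero hf
  have hf0' := K.ne_zero hf'
  refine ⟨h, ?_, ?_⟩
  · intro h0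
    have : f' * f⁻¹ = 0 := by
      rw [hh, h0, zero_pow (pow_ne_zero n hp.out.ne_zero)]
    exact mul_ne_zero hf0' (inv_ne_zero hf0) this
  · rw [← hh, mul_comm f, inv_mul_cancel_right₀ hf0]

theorem R_gal_congr (σ : GQ) {n : ℕ} {f f' : FN N} {c d : K.A →+ ZMod (p ^ n)}
    (hf : K.R n f c) (hd : K.R n (galF N σ f) d) (hf' : K.R n f' c) :
    K.R n (galF N σ f') d := by
  obtain ⟨h, hh0, hh⟩ := K.exists_eq_mul_pow hf hf'
  rw [hh, map_mul, map_pow]
  exact K.R_mul_pow hd (galF_ne_zero σ hh0)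

theorem R_pow {n : ℕ} {f : FN N} {c : K.A →+ ZMod (p ^ n)} (hf : K.R n f c) (k : ℕ) :
    K.R n (f ^ k) (k • c) := by
  induction k with
  | zero => simpa using K.R_one n
  | succ k ih =>
    rw [pow_succ, succ_nsmul]
    exact K.mul ih hf

/-- The character of `galF σ f` for any Kummer function `f` with character `c`. -/
noncomputable def actFun (n : ℕ) (σ : GQ) (c : K.A →+ ZMod (p ^ n)) : K.A →+ ZMod (p ^ n) :=
  Classical.choose (K.gal σ (Classical.choose_spec (K.ex n c)))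

theorem actFun_spec (σ : GQ) {n : ℕ} {f : FN N} {c : K.A →+ ZMod (p ^ n)} (hf : K.R n f c) :
    K.R n (galF N σ f) (K.actFun n σ c) :=
  K.R_gal_congr σ (Classical.choose_spec (K.ex n c))
    (Classical.choose_spec (K.gal σ (Classical.choose_spec (K.ex n c)))) hf

theorem actFun_eq (σ : GQ) {n : ℕ} {f : FN N} {c d : K.A →+ ZMod (p ^ n)} (hf : K.R n f c)
    (hd : K.R n (galF N σ f) d) : K.actFun n σ c = d :=
  K.uniq (K.actFun_spec σ hf) hd

theorem actFun_add (n : ℕ) (σ : GQ) (c d : K.A →+ ZMod (p ^ n)) :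
    K.actFun n σ (c + d) = K.actFun n σ c + K.actFun n σ d := by
  obtain ⟨f, hf⟩ := K.ex n c
  obtain ⟨g, hg⟩ := K.ex n d
  refine K.actFun_eq σ (K.mul hf hg) ?_
  rw [map_mul]
  exact K.mul (K.actFun_spec σ hf) (K.actFun_spec σ hg)

/-- The transported Galois action on `Hom(A, ℤ/p^n)`. -/
noncomputable def act (n : ℕ) : GQ →* AddMonoid.End (K.A →+ ZMod (p ^ n)) where
  toFun σ := AddMonoidHom.mk' (K.actFun n σ) (K.actFun_add n σ)
  map_one' := by
    ext1 c
    show K.actFun n 1 c = c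
    obtain ⟨f, hf⟩ := K.ex n c
    refine K.actFun_eq 1 hf ?_
    rwa [galF_one]
  map_mul' σ τ' := by
    ext1 c
    show K.actFun n (σ * τ') c = K.actFun n σ (K.actFun n τ' c)
    obtain ⟨f, hf⟩ := K.ex n c
    refine K.actFun_eq (σ * τ') hf ?_
    rw [galF_mul]
    exact K.actFun_spec σ (K.actFun_spec τ' hf)

theorem act_apply (n : ℕ) (σ : GQ) (c : K.A →+ ZMod (p ^ n)) :
    K.act n σ c = K.actFun n σ c := rfl

theorem finite_hom (n : ℕ) : Finite (K.A →+ ZMod (p ^ n)) := by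
  classical
  obtain ⟨S, hS, hSfin⟩ := AddGroup.fg_iff.mp K.fgA
  have : NeZero (p ^ n) := ⟨pow_ne_zero n hp.out.ne_zero⟩
  have : Finite S := hSfin
  refine Finite.of_injective (fun (c : K.A →+ ZMod (p ^ n)) (s : S) => c s.1) ?_
  intro c d hcd
  refine AddMonoidHom.eq_of_eqOn_dense hS ?_
  intro x hx
  exact congrFun hcd ⟨x, hx⟩

/-- **Producer assembly**: a Kummer system gives Eichler–Shimura matrix data. -/
theorem nonempty_esData (K : KummerSystem N p) : Nonempty (ESData N p) := by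
  classical
  refine BettiLimit.nonempty_esData K.A K.fgA K.τ K.τ_comm K.act ?_ ?_ ?_ ?_ ?_ K.occ
  · -- act_red
    intro n σ c
    obtain ⟨f, hf⟩ := K.ex (n + 1) c
    rw [act_apply, act_apply]
    exact K.actFun_eq σ (K.red hf) (K.red (K.actFun_spec σ hf))
  · -- act_τ
    intro n σ ℓ hℓ hℓN hℓp c
    obtain ⟨f, hf⟩ := K.ex n c
    have hrel : Relevant N p ℓ := ⟨hℓ, hℓN, hℓp⟩
    rw [act_apply, act_apply]
    refine K.actFun_eq σ (K.hecke hrel hf) ?_
    rw [← K.hecke_gal hrel σ hf]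
    exact K.hecke hrel (K.actFun_spec σ hf)
  · -- cont
    intro n
    have := K.finite_hom n
    choose f hf using K.ex n
    choose L hLfin hL using fun c => K.cont (f c)
    have : ∀ c, FiniteDimensional ℚ (L c) := hLfin
    refine ⟨⨆ c, L c, IntermediateField.finiteDimensional_iSup_of_finite, fun σ hσ => ?_⟩
    ext1 c
    show K.actFun n σ c = c
    refine K.actFun_eq σ (hf c) ?_
    rw [hL c σ (fun x hx => hσ x (le_iSup L c hx))]
    exact hf c
  · -- unr
    intro n q hq hqN hqp P hP σ hσ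
    ext1 c
    show K.actFun n σ c = c
    obtain ⟨f, hf⟩ := K.ex n c
    obtain ⟨g, hg⟩ := K.unr q hq hqN hqp P hP σ hσ hf
    refine K.actFun_eq σ hf ?_
    rw [hg]
    refine K.R_mul_pow hf ?_
    intro g0
    rw [g0, zero_pow (pow_ne_zero n hp.out.ne_zero), mul_zero] at hg
    exact galF_ne_zero σ (K.ne_zero hf) hg
  · -- es
    intro n ℓ hℓ hℓN hℓp B hB σ hσ c
    obtain ⟨f, hf⟩ := K.ex n c
    have hrel : Relevant N p ℓ := ⟨hℓ, hℓN, hℓp⟩
    obtain ⟨g, hg⟩ := K.es ℓ hrel B hB σ hσ hf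
    have h1 := K.actFun_spec σ hf
    have h2 := K.actFun_spec σ h1
    have hL := K.mul h2 (K.R_pow hf ℓ)
    have hT := K.hecke hrel h1
    have hg0 : g ≠ 0 := by
      intro g0
      rw [g0, zero_pow (pow_ne_zero n hp.out.ne_zero), mul_zero] at hg
      exact K.ne_zero hL hg
    rw [hg] at hL
    have hR := K.R_mul_pow hT hg0
    have := K.uniq hL hR
    rw [act_apply, act_apply, ← this]
    abel

end KummerSystem

end Fermat.Agent.S30.Producer
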