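/-
S30 PRODUCER: the Kummer system assembled from the E5 exit statements (`E5/Plan.lean`), the E4
exit (`E4/Fields.lean`) and the Kummer statement `K1` (helper13).

  E5 Props + K1  ⟹  `KummerSystem N p`  ⟹  `Nonempty (ESData N p)`.

Objects: `A := E5.A N`, `τ := E5.τ N`, `heckeF := E4.heckeFb N`, `R n f c := E5.KR N (p ^ n) f c`.
-/
import Mathlib
import Fermat.Agent.S30.Producer.Bridge
import Fermat.Agent.S30.Producer.ToESData
import Fermat.Agent.S30.E4.Fields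
import Fermat.Agent.S30.KummerHecke

set_option autoImplicit false
set_option linter.dupNamespace false

noncomputable section

open scoped MatrixGroups
open CongruenceSubgroup ModularCurve AlgebraicCurve UpperHalfPlane
open Fermat.Agent.S24.HolH Fermat.Agent.S24.Theta Fermat.Agent.S24.Modular
open Fermat.Agent.S30.KummerChar

namespace Fermat.Agent.S30.Producer.AssemblyE5

variable {N : ℕ} [NeZero N]

/-- The two forms of the Hecke operator on `FN N` agree. -/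
theorem heckeFb_eq {ℓ : ℕ} (hℓ : ℓ.Prime) (hℓN : ¬ ℓ ∣ N) (f : FN N) :
    E4.heckeFb N ℓ f = KummerHecke.heckeFN hℓ hℓN (E4.zetaU_spec hℓ.pos) f :=
  Subtype.ext (E4.coe_heckeFb N hℓ hℓN f)

/-- `T_ℓ` preserves `m ∣ div`: from "every Kummer function has a character" and "the character
of `T_ℓ f` is the transfer" (for `m > 0`; the case `m = 0` follows from all `m > 0`). -/
theorem heckeDiv (hChar : ∀ (m : ℕ) [NeZero m], E5.CharStatement N m)
    (hHecke : ∀ (m : ℕ) [NeZero m], E5.HeckeStatement N m) {ℓ : ℕ} (hℓ : ℓ.Prime)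
    (hℓN : ¬ ℓ ∣ N) : E4.HeckeDiv N ℓ := by
  intro m f hf hdiv
  have key : ∀ m' : ℕ, 0 < m' → E4.DivBy N m' f → E4.DivBy N m' (E4.heckeFb N ℓ f) := by
    intro m' hm' hdiv'
    haveI : NeZero m' := ⟨hm'.ne'⟩
    obtain ⟨c, hc⟩ := hChar m' f hf hdiv'
    have h1 := hHecke m' ℓ hℓ hℓN (E4.zetaU ℓ) (E4.zetaU_spec hℓ.pos) f c hc
    rw [heckeFb_eq hℓ hℓN]
    exact h1.2.1
  rcases Nat.eq_zero_or_pos m with rfl | hm
  · intro P
    have h0 : ∀ Q : Place Qb (E4.Fb N), Q.ord f = 0 := fun Q => by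
      have := hdiv Q
      simpa using this
    have hk := key ((P.ord (E4.heckeFb N ℓ f)).natAbs + 1) (Nat.succ_pos _)
      (fun Q => by rw [h0 Q]; exact dvd_zero _) P
    have h1 : P.ord (E4.heckeFb N ℓ f) = 0 := by
      refine Int.eq_zero_of_abs_lt_dvd hk ?_
      rw [Int.abs_eq_natAbs]
      push_cast
      omega
    rw [h1]
    exact dvd_zero _
  · exact key m hm hdiv

/-- The Kummer system in the E5 vocabulary. -/
def kummerSystem (N p : ℕ) [NeZero N] [Fact p.Prime]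
    (hTau : E5.TauStatement N)
    (hChar : ∀ (m : ℕ) [NeZero m], E5.CharStatement N m)
    (hUniq : ∀ (m : ℕ) [NeZero m], E5.UniqStatement N m)
    (hMul : ∀ (m : ℕ) [NeZero m], E5.MulStatement N m)
    (hPow : ∀ (m : ℕ) [NeZero m], E5.PowStatement N m)
    (hRed : ∀ (q : ℕ) [NeZero q], E5.RedStatement N q)
    (hInj : ∀ (m : ℕ) [NeZero m], E5.InjStatement N m)
    (hEx : ∀ (m : ℕ) [NeZero m], E5.ExStatement N m)
    (hHecke : ∀ (m : ℕ) [NeZero m], E5.HeckeStatement N m)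
    (hOcc : E5.OccStatement N)
    (hK1 : Bricks.K1 N) : KummerSystem N p where
  A := E5.A N
  fgA := E5.fg N
  τ := E5.τ N
  heckeF := E4.heckeFb N
  R n f c := E5.KR N (p ^ n) f c
  ne_zero h := h.1
  ex n c := hEx (p ^ n) c
  mul hf hg := hMul _ _ _ _ _ hf hg
  uniq hc hd := hUniq _ _ _ _ hc hd
  inj h := hInj _ _ h
  pow n _ hg := hPow (p ^ n) _ hg
  red h := hRed p _ _ _ h
  gal σ n f _ h := hChar (p ^ n) (galF N σ f)
    (fun h0 => h.1 ((galF N σ).injective (h0.trans (map_zero _).symm))) (E4.DivBy.gal h.2.1 σ)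
  hecke hℓ n f c h := by
    rw [heckeFb_eq hℓ.1 hℓ.2.1]
    exact hHecke (p ^ n) _ hℓ.1 hℓ.2.1 (E4.zetaU _) (E4.zetaU_spec hℓ.1.pos) f c h
  hecke_gal hℓ σ _ f _ _ := E4.heckeFb_galF N hℓ.1 hℓ.2.1 σ f
  cont := E4.galF_eq_self_of_fixes N
  unr q hq hqN hqp P hP σ hσ _ _ _ h := E4.unr_field N p hK1 q hq hqN hqp P hP σ hσ h.1 h.2.1
  es ℓ hℓ B hB σ hσ _ _ _ h :=
    E4.es_field N p hK1 (fun ℓ' hℓ' hℓ'N => heckeDiv hChar hHecke hℓ' hℓ'N) ℓ hℓ B hB σ hσ
      h.1 h.2.1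
  τ_comm ℓ ℓ' hℓ hℓN _ hℓ' hℓ'N _ c := Bridge.tau_comm_E5 hTau ℓ ℓ' hℓ hℓN hℓ' hℓ'N c
  occ := by
    obtain ⟨P, hadd, hinj, hT⟩ := hOcc
    exact ⟨P, hadd, hinj, fun ℓ hℓ hℓN _ f a => hT ℓ hℓ hℓN f a⟩

/-- **The producer, E5 form.** -/
theorem nonempty_esData (N p : ℕ) [NeZero N] [Fact p.Prime]
    (hTau : E5.TauStatement N)
    (hChar : ∀ (m : ℕ) [NeZero m], E5.CharStatement N m)
    (hUniq : ∀ (m : ℕ) [NeZero m], E5.UniqStatement N m)
    (hMul : ∀ (m : ℕ) [NeZero m], E5.MulStatement N m)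
    (hPow : ∀ (m : ℕ) [NeZero m], E5.PowStatement N m)
    (hRed : ∀ (q : ℕ) [NeZero q], E5.RedStatement N q)
    (hInj : ∀ (m : ℕ) [NeZero m], E5.InjStatement N m)
    (hEx : ∀ (m : ℕ) [NeZero m], E5.ExStatement N m)
    (hHecke : ∀ (m : ℕ) [NeZero m], E5.HeckeStatement N m)
    (hOcc : E5.OccStatement N)
    (hK1 : Bricks.K1 N) : Nonempty (ESData N p) :=
  (kummerSystem N p hTau hChar hUniq hMul hPow hRed hInj hEx hHecke hOcc hK1).nonempty_esData

end Fermat.Agent.S30.Producer.AssemblyE5
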