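/-
S30 PRODUCER interface, character-valued form (helper162).

`CharSystem N p` is the relational form of "the Kummer groups
`J_{p^n} = {f ∈ F^× : p^n ∣ div f} / F^{× p^n}` are identified with `Hom(A, ℤ/p^n)`",
`A` a finitely generated abelian group (think `Γ₀(N)^ab / ⟨parabolic, elliptic, -1⟩`;
torsion is allowed), Hecke-equivariantly, together with the coefficientwise Galois action.

* `R n f c` : "`f` is a Kummer function of exponent `p^n` with Kummer character `c`".

Compared with `Producer.KummerSystem` no coordinates and no "liftable part" occur: every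
Kummer function has a character, so the field `gal` only says that `σ f` is again a Kummer
function.  `CharSystem.nonempty_esData` produces the Eichler–Shimura matrix data through
`BettiLimit.nonempty_esData`.
-/
import Mathlib
import Fermat.Agent.S30.Producer.Defs
import Fermat.Agent.S30.BettiLimit

set_option autoImplicit false

namespace Fermat.Agent.S30.Producer

open Fermat.Agent.S30

/-- The character-valued Kummer system for level `N` and the prime `p`. -/
structure CharSystem (N p : ℕ) [NeZero N] [Fact p.Prime] where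
  /-- the finitely generated abelian group of which Kummer classes are characters -/
  A : Type
  [instA : AddCommGroup A]
  fg : AddGroup.FG A
  /-- Hecke endomorphisms of `A` (only relevant primes matter); `T_ℓ` acts on characters by
  `c ↦ c.comp (τ ℓ)` -/
  τ : ℕ → A →+ A
  /-- the multiplicative Hecke operators on the function field (only relevant primes matter) -/
  heckeF : ℕ → FN N → FN N
  /-- `R n f c`: `f` is a Kummer function of exponent `p ^ n` with Kummer character `c` -/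
  R : (n : ℕ) → FN N → (A →+ ZMod (p ^ n)) → Prop
  ne_zero : ∀ {n : ℕ} {f : FN N} {c : A →+ ZMod (p ^ n)}, R n f c → f ≠ 0
  /-- surjectivity of the Kummer character -/
  ex : ∀ (n : ℕ) (c : A →+ ZMod (p ^ n)), ∃ f : FN N, R n f c
  mul : ∀ {n : ℕ} {f g : FN N} {c d : A →+ ZMod (p ^ n)},
    R n f c → R n g d → R n (f * g) (c + d)
  /-- the character is determined by the function -/
  uniq : ∀ {n : ℕ} {f : FN N} {c d : A →+ ZMod (p ^ n)}, R n f c → R n f d → c = d
  /-- injectivity of the Kummer character (trivial character ⇒ `p^n`-th power) -/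
  inj : ∀ {n : ℕ} {f : FN N}, R n f 0 → ∃ g : FN N, f = g ^ (p ^ n)
  pow : ∀ (n : ℕ) {g : FN N}, g ≠ 0 → R n (g ^ (p ^ n)) 0
  /-- transition `J_{p^(n+1)} → J_{p^n}` is the identity on representatives -/
  red : ∀ {n : ℕ} {f : FN N} {c : A →+ ZMod (p ^ (n + 1))},
    R (n + 1) f c → R n f (BettiLimit.red A p n c)
  /-- Galois stability of the Kummer functions -/
  gal : ∀ (σ : GQ) {n : ℕ} {f : FN N} {c : A →+ ZMod (p ^ n)},
    R n f c → ∃ d : A →+ ZMod (p ^ n), R n (galF N σ f) d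
  /-- Hecke operators on characters -/
  hecke : ∀ {ℓ : ℕ}, Relevant N p ℓ → ∀ {n : ℕ} {f : FN N} {c : A →+ ZMod (p ^ n)},
    R n f c → R n (heckeF ℓ f) (c.comp (τ ℓ))
  /-- Hecke operators commute with the Galois action (on functions) -/
  hecke_gal : ∀ {ℓ : ℕ}, Relevant N p ℓ → ∀ (σ : GQ) (f : FN N),
    heckeF ℓ (galF N σ f) = galF N σ (heckeF ℓ f)
  /-- every function is fixed by an open subgroup -/
  cont : ∀ f : FN N, ∃ L : IntermediateField ℚ Qb, FiniteDimensional ℚ L ∧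
    ∀ σ : GQ, (∀ x ∈ L, σ x = x) → galF N σ f = f
  /-- inertia at `q ∤ N p` acts trivially on Kummer classes -/
  unr : ∀ q : ℕ, q.Prime → ¬ q ∣ N → q ≠ p →
    ∀ P : ValuationSubring Qb, P.LiesOverPrime q →
      ∀ σ ∈ P.inertiaSubgroupIn ℚ, ∀ {n : ℕ} {f : FN N} {c : A →+ ZMod (p ^ n)},
        R n f c → ∃ g : FN N, galF N σ f = f * g ^ (p ^ n)
  /-- the Eichler–Shimura relation on Kummer classes -/
  es : ∀ ℓ : ℕ, Relevant N p ℓ →
    ∀ A' : ValuationSubring Qb, A'.LiesOverPrime ℓ →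
      ∀ σ : GQ, A'.IsFrobeniusAt σ ℓ → ∀ {n : ℕ} {f : FN N} {c : A →+ ZMod (p ^ n)},
        R n f c → ∃ g : FN N,
          galF N σ (galF N σ f) * f ^ ℓ = heckeF ℓ (galF N σ f) * g ^ (p ^ n)
  /-- the Hecke endomorphisms commute on integral characters -/
  τ_comm : ∀ ℓ ℓ' : ℕ, Relevant N p ℓ → Relevant N p ℓ' →
    ∀ c : A →+ ℤ, (c.comp (τ ℓ)).comp (τ ℓ') = (c.comp (τ ℓ')).comp (τ ℓ)
  /-- the weight-2 cusp forms occur: an injective Hecke-equivariant period map -/
  occ : ∃ P : CuspForm (CongruenceSubgroup.Gamma0 N) 2 →ₗ[ℂ] (A → ℂ),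
    (∀ f a b, P f (a + b) = P f a + P f b) ∧ Function.Injective P ∧
      ∀ (ℓ : ℕ) (hℓ : ℓ.Prime) (hℓN : ¬ ℓ ∣ N), ℓ ≠ p →
        ∀ f a, P (CuspForm.heckeTLin 2 hℓ hℓN f) a = P f (τ ℓ a)

attribute [instance] CharSystem.instA

namespace CharSystem

variable {N p : ℕ} [NeZero N] [hp : Fact p.Prime] (K : CharSystem N p)

/-- Two Kummer functions with the same character differ by a `p^n`-th power. -/
theorem eq_mul_pow {n : ℕ} {f f' : FN N} {c : K.A →+ ZMod (p ^ n)}
    (h : K.R n f c) (h' : K.R n f' c) : ∃ g : FN N, g ≠ 0 ∧ f' = f * g ^ (p ^ n) := by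
  obtain ⟨u, hu⟩ := K.ex n (-c)
  have h1 := K.mul h hu
  have h2 := K.mul h' hu
  rw [add_neg_cancel] at h1 h2
  obtain ⟨g1, hg1⟩ := K.inj h1
  obtain ⟨g2, hg2⟩ := K.inj h2
  have hf : f ≠ 0 := K.ne_zero h
  have hf' : f' ≠ 0 := K.ne_zero h'
  have hu0 : u ≠ 0 := K.ne_zero hu
  have hg1' : g1 ≠ 0 := by
    rintro rfl
    rw [zero_pow (pow_ne_zero n hp.out.ne_zero)] at hg1
    exact mul_ne_zero hf hu0 hg1
  have hg2' : g2 ≠ 0 := by
    rintro rfl
    rw [zero_pow (pow_ne_zero n hp.out.ne_zero)] at hg2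
    exact mul_ne_zero hf' hu0 hg2
  refine ⟨g2 / g1, div_ne_zero hg2' hg1', ?_⟩
  rw [div_pow, ← hg1, ← hg2]
  field_simp

theorem rel_mul_pow {n : ℕ} {f g : FN N} {c : K.A →+ ZMod (p ^ n)}
    (h : K.R n f c) (hg : g ≠ 0) : K.R n (f * g ^ (p ^ n)) c := by
  have := K.mul h (K.pow n hg)
  rwa [add_zero] at this

theorem rel_one (n : ℕ) : K.R n (1 : FN N) 0 := by
  have := K.pow n (one_ne_zero (α := FN N))
  rwa [one_pow] at this

theorem rel_pow_nat {n : ℕ} {f : FN N} {c : K.A →+ ZMod (p ^ n)}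
    (h : K.R n f c) (k : ℕ) : K.R n (f ^ k) (k • c) := by
  induction k with
  | zero =>
    rw [pow_zero, zero_smul]
    exact K.rel_one n
  | succ k ih =>
    rw [pow_succ, succ_nsmul]
    exact K.mul ih h

/-- The character of `σ f`, for `f` of character `c`. -/
noncomputable def actFun (σ : GQ) (n : ℕ) (c : K.A →+ ZMod (p ^ n)) : K.A →+ ZMod (p ^ n) :=
  Classical.choose (K.gal σ (Classical.choose_spec (K.ex n c)))

theorem actFun_spec (σ : GQ) {n : ℕ} {f : FN N} {c : K.A →+ ZMod (p ^ n)} (h : K.R n f c) :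
    K.R n (galF N σ f) (K.actFun σ n c) := by
  have h0 := Classical.choose_spec (K.ex n c)
  have h1 : K.R n (galF N σ (Classical.choose (K.ex n c))) (K.actFun σ n c) :=
    Classical.choose_spec (K.gal σ h0)
  obtain ⟨g, hg, rfl⟩ := K.eq_mul_pow h0 h
  rw [map_mul, map_pow]
  exact K.rel_mul_pow h1 ((map_ne_zero_iff _ (galF N σ).injective).2 hg)

theorem actFun_eq (σ : GQ) {n : ℕ} {f : FN N} {c d : K.A →+ ZMod (p ^ n)} (h : K.R n f c)
    (hd : K.R n (galF N σ f) d) : K.actFun σ n c = d :=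
  K.uniq (K.actFun_spec σ h) hd

theorem actFun_add (σ : GQ) (n : ℕ) (c d : K.A →+ ZMod (p ^ n)) :
    K.actFun σ n (c + d) = K.actFun σ n c + K.actFun σ n d := by
  obtain ⟨f, hf⟩ := K.ex n c
  obtain ⟨g, hg⟩ := K.ex n d
  refine K.actFun_eq σ (K.mul hf hg) ?_
  rw [map_mul]
  exact K.mul (K.actFun_spec σ hf) (K.actFun_spec σ hg)

theorem actFun_one (n : ℕ) (c : K.A →+ ZMod (p ^ n)) : K.actFun 1 n c = c := by
  obtain ⟨f, hf⟩ := K.ex n c
  refine K.actFun_eq 1 hf ?_
  rwa [galF_one]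

theorem actFun_mul (σ τ' : GQ) (n : ℕ) (c : K.A →+ ZMod (p ^ n)) :
    K.actFun (σ * τ') n c = K.actFun σ n (K.actFun τ' n c) := by
  obtain ⟨f, hf⟩ := K.ex n c
  refine K.actFun_eq (σ * τ') hf ?_
  rw [galF_mul]
  exact K.actFun_spec σ (K.actFun_spec τ' hf)

/-- The Galois action on `Hom(A, ℤ/p^n)`. -/
noncomputable def act (n : ℕ) : GQ →* AddMonoid.End (K.A →+ ZMod (p ^ n)) where
  toFun σ := AddMonoidHom.mk' (K.actFun σ n) (K.actFun_add σ n)
  map_one' := by
    ext c : 1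
    exact K.actFun_one n c
  map_mul' := by
    intro σ τ'
    ext c : 1
    exact K.actFun_mul σ τ' n c

theorem act_apply (n : ℕ) (σ : GQ) (c : K.A →+ ZMod (p ^ n)) :
    K.act n σ c = K.actFun σ n c := rfl

theorem finite_hom (n : ℕ) : Finite (K.A →+ ZMod (p ^ n)) := by
  have : NeZero (p ^ n) := ⟨pow_ne_zero n hp.out.ne_zero⟩
  obtain ⟨S, hS⟩ := K.fg
  have hS' : AddSubgroup.closure (S : Set K.A) = ⊤ := hS
  refine Finite.of_injective (fun (c : K.A →+ ZMod (p ^ n)) (s : S) => c s) ?_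
  intro c d hcd
  refine AddMonoidHom.eq_of_eqOn_dense hS' ?_
  intro s hs
  exact congrFun hcd ⟨s, hs⟩

/-- **Character-valued Kummer system ⇒ Eichler–Shimura matrix data.** -/
theorem nonempty_esData (K : CharSystem N p) : Nonempty (ESData N p) := by
  refine BettiLimit.nonempty_esData K.A K.fg K.τ ?_ K.act ?_ ?_ ?_ ?_ ?_ K.occ
  · intro ℓ ℓ' h1 h2 h3 h1' h2' h3'
    exact K.τ_comm ℓ ℓ' ⟨h1, h2, h3⟩ ⟨h1', h2', h3'⟩
  · intro n σ c
    obtain ⟨f, hf⟩ := K.ex (n + 1) c
    rw [act_apply, act_apply]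
    exact K.actFun_eq σ (K.red hf) (K.red (K.actFun_spec σ hf))
  · intro n σ ℓ h1 h2 h3 c
    obtain ⟨f, hf⟩ := K.ex n c
    rw [act_apply, act_apply]
    refine K.actFun_eq σ (K.hecke ⟨h1, h2, h3⟩ hf) ?_
    rw [← K.hecke_gal ⟨h1, h2, h3⟩]
    exact K.hecke ⟨h1, h2, h3⟩ (K.actFun_spec σ hf)
  · intro n
    have := K.finite_hom n
    choose f hf using K.ex n
    choose L hL hLf using fun c : K.A →+ ZMod (p ^ n) => K.cont (f c)
    refine ⟨⨆ c, L c, inferInstance, fun σ hσ => ?_⟩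
    ext c : 1
    rw [act_apply]
    refine K.actFun_eq σ (hf c) ?_
    rw [hLf c σ fun x hx => hσ x (le_iSup L c hx)]
    exact hf c
  · intro n q hq hqN hqp P hP σ hσ
    ext c : 1
    rw [act_apply]
    obtain ⟨f, hf⟩ := K.ex n c
    obtain ⟨g, hg⟩ := K.unr q hq hqN hqp P hP σ hσ hf
    refine K.actFun_eq σ hf ?_
    rw [hg]
    refine K.rel_mul_pow hf ?_
    rintro rfl
    rw [zero_pow (pow_ne_zero n hp.out.ne_zero), mul_zero] at hg
    exact (map_ne_zero_iff _ (galF N σ).injective).2 (K.ne_zero hf) hg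
  · intro n ℓ hℓ hℓN hℓp A' hA' σ hσ c
    obtain ⟨f, hf⟩ := K.ex n c
    obtain ⟨g, hg⟩ := K.es ℓ ⟨hℓ, hℓN, hℓp⟩ A' hA' σ hσ hf
    have h1 := K.actFun_spec σ hf
    have h2 := K.actFun_spec σ h1
    have h3 := K.hecke ⟨hℓ, hℓN, hℓp⟩ h1
    have hL := K.mul h2 (K.rel_pow_nat hf ℓ)
    have hg0 : g ≠ 0 := by
      rintro rfl
      rw [zero_pow (pow_ne_zero n hp.out.ne_zero), mul_zero] at hg
      exact K.ne_zero hL hg
    rw [hg] at hL
    have key := K.uniq hL (K.rel_mul_pow h3 hg0)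
    rw [act_apply, act_apply, sub_add_eq_add_sub, key, sub_self]

end CharSystem

end Fermat.Agent.S30.Producer
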