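/-
S30 PRODUCER brick `Prod.Cont` (tasks row 242, helper100): every function of `FN N` is fixed by
an open subgroup of `G_ℚ` (the Galois action is coefficientwise on `q`-expansions).
-/
import Fermat.Agent.S30.Producer.Bricks

set_option autoImplicit false

namespace Fermat.Agent.S30.Producer.ContBrick

open ModularCurve

local notation "Qb" => AlgebraicClosure ℚ
local notation "GQ" => (AlgebraicClosure ℚ ≃ₐ[ℚ] AlgebraicClosure ℚ)

/-- Every element of a Laurent base change `ℚ̄ ⊗ F₀` is fixed (coefficientwise) by an open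
subgroup of `G_ℚ`. -/
theorem exists_fixing_field (F₀ : IntermediateField ℚ (LaurentSeries ℚ))
    {x : LaurentSeries Qb} (hx : x ∈ laurentBaseChange Qb F₀) :
    ∃ L : IntermediateField ℚ Qb, FiniteDimensional ℚ L ∧
      ∀ σ : GQ, (∀ y ∈ L, σ y = y) → coeffMap (σ : Qb →+* Qb) x = x := by
  rw [mem_laurentBaseChange_iff] at hx
  induction hx using Subfield.closure_induction with
  | mem y hy =>
      rcases hy with ⟨a, rfl⟩ | ⟨z, hz, rfl⟩
      · have ha : IsIntegral ℚ a := ((AlgebraicClosure.isAlgebraic ℚ).isAlgebraic a).isIntegral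
        refine ⟨IntermediateField.adjoin ℚ {a}, IntermediateField.adjoin.finiteDimensional ha, ?_⟩
        intro σ hσ
        rw [coeffMap_algebraMap]
        congr 1
        exact hσ a (IntermediateField.mem_adjoin_simple_self ℚ a)
      · refine ⟨⊥, inferInstance, ?_⟩
        intro σ _
        exact coeffMap_coeffEmb σ z
  | one =>
      exact ⟨⊥, inferInstance, fun σ _ => map_one _⟩
  | add x y _ _ hx hy =>
      obtain ⟨L1, hL1, h1⟩ := hx
      obtain ⟨L2, hL2, h2⟩ := hy
      refine ⟨L1 ⊔ L2, IntermediateField.finiteDimensional_sup L1 L2, fun σ hσ => ?_⟩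
      rw [map_add, h1 σ fun y hy => hσ y ((le_sup_left : L1 ≤ L1 ⊔ L2) hy),
        h2 σ fun y hy => hσ y ((le_sup_right : L2 ≤ L1 ⊔ L2) hy)]
  | neg x _ hx =>
      obtain ⟨L1, hL1, h1⟩ := hx
      exact ⟨L1, hL1, fun σ hσ => by rw [map_neg, h1 σ hσ]⟩
  | inv x _ hx =>
      obtain ⟨L1, hL1, h1⟩ := hx
      exact ⟨L1, hL1, fun σ hσ => by rw [map_inv₀, h1 σ hσ]⟩
  | mul x y _ _ hx hy =>
      obtain ⟨L1, hL1, h1⟩ := hx
      obtain ⟨L2, hL2, h2⟩ := hy
      refine ⟨L1 ⊔ L2, IntermediateField.finiteDimensional_sup L1 L2, fun σ hσ => ?_⟩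
      rw [map_mul, h1 σ fun y hy => hσ y ((le_sup_left : L1 ≤ L1 ⊔ L2) hy),
        h2 σ fun y hy => hσ y ((le_sup_right : L2 ≤ L1 ⊔ L2) hy)]

/-- **Brick `Prod.Cont`**: every function of `FN N` is fixed by an open subgroup of `G_ℚ`. -/
theorem cont (N : ℕ) : Bricks.Cont N := by
  intro f
  obtain ⟨L, hL, h⟩ := exists_fixing_field (modularFunctionFieldFull N) f.2
  exact ⟨L, hL, fun σ hσ => Subtype.ext (by rw [coe_galF]; exact h σ hσ)⟩

end Fermat.Agent.S30.Producer.ContBrick
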