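/-
S30 PRODUCER, brick `Prod.Surj` (tasks#237, helper5): the adapter.

`Producer.Bricks.Surj N` from

* (ExRoot) every `μ_m`-valued character of `Γ₀(N)` trivial on the elements with `tr² ≤ 4` is the
  multiplier system of a Kummer root over `ℚ̄` (Eisenstein series with character + descent
  `ℂ → ℚ̄`; produced in `Producer/SurjDescent.lean` from the descent output), and
* the landed Kummer converse `KummerConverse.divBy_of_isKummerRoot` (gives `m ∣ div f`).

Also: the elementary fact that an element of `SL(2, ℤ)` with a fixed point in `ℍ` has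
`tr² ≤ 4`, so that "trivial on `parEll`" implies "trivial on special elements".
-/
import Mathlib
import Fermat.Agent.S30.Producer.Bricks
import Fermat.Agent.S30.KummerConverse

set_option autoImplicit false
set_option linter.dupNamespace false

noncomputable section

open scoped MatrixGroups
open CongruenceSubgroup ModularCurve AlgebraicCurve UpperHalfPlane
open Fermat.Agent.S24.HolH Fermat.Agent.S24.Theta Fermat.Agent.S24.Modular
open Fermat.Agent.S30.KummerChar

namespace Fermat.Agent.S30.Producer.SurjBrick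

/-- An element of `SL(2, ℤ)` with a fixed point in the upper half plane has `tr² ≤ 4`. -/
theorem trace_sq_le_of_fixed (g : SL(2, ℤ)) {τ : ℍ} (h : g • τ = τ) : g.1.trace ^ 2 ≤ 4 := by
  have hdet : g 0 0 * g 1 1 - g 0 1 * g 1 0 = 1 := by
    have := g.det_coe
    rwa [Matrix.det_fin_two] at this
  rw [Matrix.trace_fin_two]
  set A : ℝ := (g 0 0 : ℝ) with hA
  set B : ℝ := (g 0 1 : ℝ) with hB
  set C : ℝ := (g 1 0 : ℝ) with hC
  set D : ℝ := (g 1 1 : ℝ) with hD
  have hdetR : A * D - B * C = 1 := by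
    rw [hA, hB, hC, hD]
    exact_mod_cast hdet
  have hy : 0 < τ.im := τ.im_pos
  have hτ : (τ : ℂ) = ⟨τ.re, τ.im⟩ := rfl
  have h1 : ((g • τ : ℍ) : ℂ) = (τ : ℂ) := congrArg (fun z : ℍ => (z : ℂ)) h
  rw [UpperHalfPlane.coe_specialLinearGroup_apply] at h1
  have hden : ((algebraMap ℤ ℝ (g 1 0) : ℝ) : ℂ) * (τ : ℂ) + ((algebraMap ℤ ℝ (g 1 1) : ℝ) : ℂ)
      ≠ 0 := by
    have := UpperHalfPlane.denom_ne_zero (g : GL (Fin 2) ℝ) τ
    simpa [UpperHalfPlane.denom] using this
  rw [div_eq_iff hden] at h1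
  have hre := congrArg Complex.re h1
  have him := congrArg Complex.im h1
  rw [hτ] at hre him
  simp only [Complex.add_re, Complex.mul_re, Complex.ofReal_re, Complex.ofReal_im, zero_mul,
    sub_zero, Complex.add_im, Complex.mul_im, add_zero, eq_intCast] at hre him
  -- `hre : A x + B = x (C x + D) - y (C y)`, `him : A y = x (C y) + y (C x + D)`
  have hre' : A * τ.re + B = τ.re * (C * τ.re + D) - τ.im * (C * τ.im) := by
    simpa [hA, hB, hC, hD] using hre
  have him' : A * τ.im = τ.re * (C * τ.im) + τ.im * (C * τ.re + D) := by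
    simpa [hA, hB, hC, hD] using him
  have hx : 2 * C * τ.re = A - D := by
    have h2 : τ.im * (2 * C * τ.re - (A - D)) = 0 := by linear_combination -him'
    rcases mul_eq_zero.mp h2 with h3 | h3
    · exact absurd h3 hy.ne'
    · linarith
  have hkey : (A + D) ^ 2 = 4 - 4 * C ^ 2 * τ.im ^ 2 := by
    have hb : B = -(C * (τ.re ^ 2 + τ.im ^ 2)) := by
      have e : B = τ.re * (C * τ.re + D) - τ.im * (C * τ.im) - A * τ.re := by linarith
      rw [e]
      have : (A - D) * τ.re = 2 * C * τ.re * τ.re := by rw [hx]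
      nlinarith [this]
    have : (A + D) ^ 2 = (A - D) ^ 2 + 4 * (A * D) := by ring
    rw [this, ← hx]
    have hAD : A * D = 1 + B * C := by linarith
    rw [hAD, hb]
    ring
  have hR : ((g 0 0 : ℝ) + (g 1 1 : ℝ)) ^ 2 ≤ 4 := by
    have : (A + D) ^ 2 ≤ 4 := by
      rw [hkey]
      nlinarith [sq_nonneg (C * τ.im)]
    simpa [hA, hD] using this
  exact_mod_cast hR

/-- Conjugates of powers of `T` have trace `2`. -/
theorem trace_conj_T_zpow (g : SL(2, ℤ)) (n : ℤ) :
    ((g * ModularGroup.T ^ n * g⁻¹ : SL(2, ℤ)) : Matrix (Fin 2) (Fin 2) ℤ).trace = 2 := by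
  rw [Matrix.SpecialLinearGroup.coe_mul, Matrix.trace_mul_comm, ← Matrix.SpecialLinearGroup.coe_mul,
    inv_mul_cancel_left, ModularGroup.coe_T_zpow, Matrix.trace_fin_two]
  simp

/-- **(ExRoot)**, `parEll` form: every character of `Γ₀(N)` with values in `μ_m`, trivial on the
elements with `tr² ≤ 4`, is the multiplier system of a Kummer root over `ℚ̄`. -/
def ExRoot (N : ℕ) : Prop :=
  ∀ (m : ℕ), 0 < m → ∀ φ : Gamma0 N →* ℂˣ, (∀ γ, φ γ ^ m = 1) → (∀ γ ∈ parEll N, φ γ = 1) →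
    ∃ (a b : A0 N) (H : HolH), a ≠ 0 ∧ b ≠ 0 ∧ IsKummerRoot iotaBar m a b H ∧
      ∀ γ : Gamma0 N, mult (γ : SL(2, ℤ)) H = (φ γ : ℂ)

/-- **`Prod.Surj` from (ExRoot)** and the landed Kummer converse. -/
theorem surj_of_exRoot (N : ℕ) [NeZero N] (hEx : ExRoot N) : Bricks.Surj N := by
  intro m hm φ hφm hφpe
  obtain ⟨a, b, H, ha, hb, hroot, hmult⟩ := hEx m hm φ hφm hφpe
  have hb' : (b : FN N) ≠ 0 := fun h => hb (Subtype.ext h)
  have ha' : (a : FN N) ≠ 0 := fun h => ha (Subtype.ext h)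
  have hfab : (a : FN N) / (b : FN N) * (b : FN N) = (a : FN N) := div_mul_cancel₀ _ hb'
  have hell : ∀ γ ∈ Gamma0 N, (∃ τ : ℍ, γ • τ = τ) → mult γ H = 1 := by
    rintro γ hγ ⟨τ, hτ⟩
    have h1 := hmult ⟨γ, hγ⟩
    have h2 : (⟨γ, hγ⟩ : Gamma0 N) ∈ parEll N := trace_sq_le_of_fixed γ hτ
    rw [hφpe _ h2] at h1
    simpa using h1
  have hpar : ∀ γ ∈ Gamma0 N, ∀ (g : SL(2, ℤ)) (n : ℤ),
      γ = g * ModularGroup.T ^ n * g⁻¹ → mult γ H = 1 := by
    intro γ hγ g n hγg
    have h1 := hmult ⟨γ, hγ⟩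
    have h2 : (⟨γ, hγ⟩ : Gamma0 N) ∈ parEll N := by
      show (γ : Matrix (Fin 2) (Fin 2) ℤ).trace ^ 2 ≤ 4
      rw [hγg, trace_conj_T_zpow]
      norm_num
    rw [hφpe _ h2] at h1
    simpa using h1
  exact ⟨(a : FN N) / (b : FN N), a, b, H, div_ne_zero ha' hb',
    Fermat.Agent.S30.KummerConverse.divBy_of_isKummerRoot hm ha hb hroot hell hpar _ hfab,
    ha, hb, hfab, hroot, hmult⟩

end Fermat.Agent.S30.Producer.SurjBrick

end
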