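/-
S30 PRODUCER, brick `Prod.Surj` (tasks#237, helper5): the `ℚ̄`-side glue.

From the output of the `ℂ → ℚ̄` descent for the Eisenstein root `x_φ` (a series `y ∈ ℚ̄((q))`
with `y ^ m ∈ F_N` and `ι y = u · x_φ`, `u ∈ F_ℂ`), we produce a Kummer root `H` of
`f = y ^ m` whose multiplier on `Γ₀(N)` is `φ`.  No places, no meromorphic quotients: the root
is obtained from `Lib.HolRootH` and identified by the identity theorem in the domain `HolH`.
-/
import Mathlib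
import Fermat.Agent.S30.Producer.Bricks
import Fermat.Agent.S30.DescentInst.Defs
import Fermat.Agent.S30.EisRoot
import Fermat.Agent.S30.KummerChar.Main

set_option autoImplicit false
set_option linter.dupNamespace false

noncomputable section

open scoped MatrixGroups Manifold ModularForm
open CongruenceSubgroup ModularCurve AlgebraicCurve UpperHalfPlane ModularForm
open Fermat.Agent.S24.HolH Fermat.Agent.S24.Theta Fermat.Agent.S24.Modular
open Fermat.Agent.S30.KummerChar Fermat.Agent.S24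
open Fermat.Agent.Lib.EisChar

namespace Fermat.Agent.S30.Producer.SurjCore

variable {N : ℕ} [NeZero N]

/-- Level-`N` expansion of `theta x`, coefficients pushed to `ℂ`. -/
theorem has_theta (x : A0 N) :
    QB.HasQExpK (RingHom.id ℂ) N
      (qExpand ℂ N (coeffMap (iotaBar : Kbar →+* ℂ) ((x : FN N) : LaurentSeries Kbar)))
      ((theta iotaBar N x : HolH) : ℍ → ℂ) := by
  have h := hasQ_theta iotaBar N x
  have h1 : HasQ (RingHom.id ℂ)
      (coeffMap (iotaBar : Kbar →+* ℂ) ((x : FN N) : LaurentSeries Kbar))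
      ((theta iotaBar N x : HolH) : ℍ → ℂ) := by
    intro τ
    have h2 := h τ
    simpa [coeffMap_coeff] using h2
  exact (hasQ_iff_hasQExpK.mp h1).qExpand_one N

/-- `E₄` as an element of `HolH`. -/
def e4H : HolH := ⟨fun τ : ℍ => E₄ τ, ModularFormClass.holo E₄⟩

theorem e4H_apply (τ : ℍ) : (e4H : ℍ → ℂ) τ = E₄ τ := rfl

theorem has_e4H :
    QB.HasQExpK (RingHom.id ℂ) N
      (qExpand ℂ N (HahnSeries.ofPowerSeries ℤ ℂ (qExpansion 1 E₄)))
      (e4H : ℍ → ℂ) :=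
  (Fermat.Agent.S30.EisRoot.hasQExpK_E4).qExpand_one N

theorem e4H_ne_zero : e4H ≠ 0 := by
  intro h
  have h1 : QB.HasQExpK (RingHom.id ℂ) 1
      (HahnSeries.ofPowerSeries ℤ ℂ (qExpansion 1 E₄)) (fun _ : ℍ => (0 : ℂ)) := by
    refine (Fermat.Agent.S30.EisRoot.hasQExpK_E4).congr fun τ => ?_
    have := congrArg (fun f : HolH => (f : ℍ → ℂ) τ) h
    simpa [e4H] using this
  have h2 := QB.HasQExpK.eq_zero one_ne_zero h1
  exact Fermat.Agent.S30.EisRoot.qExpansion_E4_ne_zero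
    (HahnSeries.ofPowerSeries_injective (by rw [h2, map_zero]))

/-- `E_φ` (weight 4, character `φ`) as an element of `HolH`. -/
def eisH (φ : Gamma0 N →* ℂˣ) (hunit : ∀ γ, ‖(φ γ : ℂ)‖ = 1) : HolH :=
  ⟨eisK φ 4, mdifferentiable_eisK φ hunit (by norm_num)⟩

theorem eisH_apply (φ : Gamma0 N →* ℂˣ) (hunit : ∀ γ, ‖(φ γ : ℂ)‖ = 1) (τ : ℍ) :
    (eisH φ hunit : ℍ → ℂ) τ = eisK φ 4 τ := rfl

theorem has_eisH (φ : Gamma0 N →* ℂˣ) (hunit : ∀ γ, ‖(φ γ : ℂ)‖ = 1)
    (hpar : ∀ γ : Gamma0 N, ((γ : SL(2, ℤ)) : Matrix (Fin 2) (Fin 2) ℤ) 1 0 = 0 → φ γ = 1) :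
    QB.HasQExpK (RingHom.id ℂ) N
      (qExpand ℂ N (HahnSeries.ofPowerSeries ℤ ℂ (Fermat.Agent.S30.EisRoot.eisQ φ)))
      (eisH φ hunit : ℍ → ℂ) :=
  (Fermat.Agent.S30.EisRoot.hasQExpK_eisQ φ hunit hpar).qExpand_one N

/-- The formal identity behind the root: with `ιy = u·x`, `x·e₄ = e`, `u·u₂ = u₁`,
`(ιy)^(k+1)·B = A` one has `(e·u₁·B)^(k+1) = A·B^k·(e₄·u₂)^(k+1)`. -/
theorem series_identity {R : Type*} [CommRing R] (k : ℕ) (Y u x e e4 u1 u2 A B : R)
    (hY : Y = u * x) (hx : x * e4 = e) (hu : u * u2 = u1) (hAB : Y ^ (k + 1) * B = A) :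
    (e * u1 * B) ^ (k + 1) = A * B ^ k * (e4 * u2) ^ (k + 1) := by
  subst hY hx hu hAB
  ring

/-- **The `ℚ̄`-side glue.**  If `y ∈ ℚ̄((q))` satisfies `y ^ m ∈ F_N` and `ι y = u · x_φ` with
`u ∈ F_ℂ` nonzero (`x_φ` the `q`-expansion of `E_φ / E₄`), then `f := y ^ m` has a Kummer root
whose multiplier on `Γ₀(N)` is `φ`. -/
theorem exists_root_of_descent {m : ℕ} (hm : 0 < m) (φ : Gamma0 N →* ℂˣ)
    (hφm : ∀ γ, φ γ ^ m = 1)
    (hpar : ∀ γ : Gamma0 N, ((γ : SL(2, ℤ)) : Matrix (Fin 2) (Fin 2) ℤ) 1 0 = 0 → φ γ = 1)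
    (y : LaurentSeries Kbar) (hy0 : y ≠ 0)
    (hym : y ^ m ∈ IntermediateField.adjoin Kbar (DegreeGen.gens Kbar N))
    (u : LaurentSeries ℂ) (hu : u ∈ Fermat.Agent.S30.DescentInst.FC N) (hu0 : u ≠ 0)
    (hyu : coeffMap (iotaBar : Kbar →+* ℂ) y = u * Fermat.Agent.S30.EisRoot.xRoot φ) :
    ∃ (f : FN N) (a b : A0 N) (H : HolH), f ≠ 0 ∧ a ≠ 0 ∧ b ≠ 0 ∧
      f * (b : FN N) = (a : FN N) ∧ IsKummerRoot iotaBar m a b H ∧
      ∀ γ : Gamma0 N, mult (γ : SL(2, ℤ)) H = (φ γ : ℂ) := by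
  obtain ⟨k, rfl⟩ : ∃ k, m = k + 1 := ⟨m - 1, (Nat.sub_add_cancel hm).symm⟩
  have hunit := Fermat.Agent.S30.EisGood.norm_phi_eq_one φ hm hφm
  -- the function `f = y ^ m`
  have hfmem : y ^ (k + 1) ∈ modularFunctionFieldBar N := by
    have h := DegreeGen.laurentBaseChange_full_eq_adjoin Kbar N
    rw [← h] at hym
    exact hym
  let f : FN N := ⟨y ^ (k + 1), hfmem⟩
  have hf0 : f ≠ 0 := fun h => pow_ne_zero (k + 1) hy0 (congrArg Subtype.val h)
  obtain ⟨a, b, hb', hab⟩ := exists_mul_eq f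
  have hb : b ≠ 0 := fun h => hb' (by rw [h]; rfl)
  have ha : a ≠ 0 := ne_zero_of_mul_eq hf0 hb hab
  obtain ⟨u1, u2, hu2, hu12⟩ := Fermat.Agent.S30.DescentInst.exists_good_frac N hu
  have hu2' : (u2 : LaurentSeries ℂ) ≠ 0 := fun h => hu2 (Subtype.ext h)
  have hu1 : u1 ≠ 0 := by
    rintro rfl
    exact mul_ne_zero hu0 hu2' hu12
  -- the holomorphic functions
  set F1 : HolH := eisH φ hunit * Fermat.Agent.S30.DescentInst.thetaC N u1 * theta iotaBar N b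
    with hF1
  set F2 : HolH := e4H * Fermat.Agent.S30.DescentInst.thetaC N u2 with hF2
  set G : HolH := theta iotaBar N a * theta iotaBar N b ^ k with hG
  have hF2ne : F2 ≠ 0 :=
    mul_ne_zero e4H_ne_zero (Fermat.Agent.S30.DescentInst.thetaC_ne_zero N hu2)
  have hGne : G ≠ 0 := mul_ne_zero (theta_ne_zero ha) (pow_ne_zero _ (theta_ne_zero hb))
  -- the identity `F1 ^ m = G * F2 ^ m`
  have hAB : coeffMap (iotaBar : Kbar →+* ℂ) y ^ (k + 1)
      * coeffMap (iotaBar : Kbar →+* ℂ) ((b : FN N) : LaurentSeries Kbar)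
      = coeffMap (iotaBar : Kbar →+* ℂ) ((a : FN N) : LaurentSeries Kbar) := by
    have h := congrArg (fun x : FN N => coeffMap (iotaBar : Kbar →+* ℂ) (x : LaurentSeries Kbar)) hab
    simpa [f, map_mul, map_pow] using h
  have hser := series_identity k _ _ _ _ _ (u1 : LaurentSeries ℂ) (u2 : LaurentSeries ℂ) _ _ hyu
    (Fermat.Agent.S30.EisRoot.xRoot_mul_E4 φ) hu12 hAB
  have hid : F1 ^ (k + 1) = G * F2 ^ (k + 1) := by
    apply Subtype.ext
    have h1 := (((has_eisH φ hunit hpar).mul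
      (Fermat.Agent.S30.DescentInst.hasQExpK_thetaC N u1)).mul (has_theta b)).pow (k + 1)
    have h2 := ((has_theta a).mul ((has_theta b).pow k)).mul
      (((has_e4H (N := N)).mul (Fermat.Agent.S30.DescentInst.hasQExpK_thetaC N u2)).pow (k + 1))
    have hs := congrArg (qExpand ℂ N) hser
    simp only [map_mul, map_pow] at hs
    rw [hs] at h1
    exact h1.fun_unique h2
  have hF1ne : F1 ≠ 0 := by
    intro h
    rw [h, zero_pow (Nat.succ_ne_zero k)] at hid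
    exact mul_ne_zero hGne (pow_ne_zero _ hF2ne) hid.symm
  -- the root
  obtain ⟨H0, hH0⟩ := Fermat.Agent.Lib.HolRootH.exists_root (k + 1) (Nat.succ_ne_zero k) G hGne
    (fun τ => by
      have h1 := congrArg (ordZ τ) hid
      rw [ordZ_mul τ hGne (pow_ne_zero _ hF2ne), Fermat.Agent.Lib.HolRootH.ordZ_pow τ hF2ne,
        Fermat.Agent.Lib.HolRootH.ordZ_pow τ hF1ne] at h1
      refine ⟨ordZ τ F1 - ordZ τ F2, ?_⟩
      push_cast at h1 ⊢
      linear_combination -h1)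
  obtain ⟨c, hc1, hc⟩ := exists_const_of_pow_eq (Nat.succ_pos k) (X := H0 * F2) (Y := F1)
    (by rw [mul_pow, hH0, hid])
  have hc0 : c ≠ 0 := by
    rintro rfl
    rw [zero_pow (Nat.succ_ne_zero k)] at hc1
    exact zero_ne_one hc1
  set H : HolH := algebraMap ℂ HolH c⁻¹ * H0 with hH
  have hHF : H * F2 = F1 := by
    rw [hH, mul_assoc, hc, ← mul_assoc, ← map_mul, inv_mul_cancel₀ hc0, map_one, one_mul]
  have hHpow : H ^ (k + 1) = G := by
    rw [hH, mul_pow, ← map_pow, inv_pow, hc1, inv_one, map_one, one_mul, hH0]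
  have hHne : H ≠ 0 := by
    rintro h
    rw [h, zero_mul] at hHF
    exact hF1ne hHF.symm
  refine ⟨f, a, b, H, hf0, ha, hb, hab, ?_, ?_⟩
  · show H ^ (k + 1) = theta iotaBar N a * theta iotaBar N b ^ (k + 1 - 1)
    rw [Nat.add_sub_cancel]
    exact hHpow
  · intro γ
    have hγ : (γ : SL(2, ℤ)) ∈ Gamma0 N := γ.2
    have key : compSL (γ : SL(2, ℤ)) H * F2 = (algebraMap ℂ HolH (φ γ : ℂ) * H) * F2 := by
      apply Subtype.ext
      funext τ
      have e1 := congrArg (fun X : HolH => (X : ℍ → ℂ) ((γ : SL(2, ℤ)) • τ)) hHF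
      have e2 := congrArg (fun X : HolH => (X : ℍ → ℂ) τ) hHF
      have i1 := congrArg (fun X : HolH => (X : ℍ → ℂ) τ)
        (Fermat.Agent.S30.DescentInst.compSL_thetaC N hγ u1)
      have i2 := congrArg (fun X : HolH => (X : ℍ → ℂ) τ)
        (Fermat.Agent.S30.DescentInst.compSL_thetaC N hγ u2)
      have i3 := congrArg (fun X : HolH => (X : ℍ → ℂ) τ)
        (compSL_theta_of_mem_Gamma0 (ι := iotaBar) hγ b)
      have t1 := eisK_smul φ hpar 4 γ τ
      have t2 := JFun.E4_smul (γ : SL(2, ℤ)) τ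
      have hd : denom (γ : SL(2, ℤ)) τ ^ (4 : ℤ) ≠ 0 := zpow_ne_zero _ (denom_ne_zero _ τ)
      simp only [compSL_apply] at i1 i2 i3
      simp only [hF1, hF2, Subalgebra.coe_mul, Pi.mul_apply, eisH_apply, e4H_apply] at e1 e2
      rw [i1, i3, t1] at e1
      rw [i2, t2] at e1
      show (H : ℍ → ℂ) ((γ : SL(2, ℤ)) • τ) * (F2 : ℍ → ℂ) τ
        = (φ γ : ℂ) * (H : ℍ → ℂ) τ * (F2 : ℍ → ℂ) τ
      simp only [hF2, Subalgebra.coe_mul, Pi.mul_apply, e4H_apply]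
      apply mul_left_cancel₀ hd
      linear_combination e1 - (φ γ : ℂ) * denom (γ : SL(2, ℤ)) τ ^ (4 : ℤ) * e2
    exact mult_eq_of_eq hHne (mul_right_cancel₀ hF2ne key)

end Fermat.Agent.S30.Producer.SurjCore

end
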