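/-
S30 PRODUCER, brick `Prod.Surj` (tasks#237, helper5): the assembly.

`Producer.Bricks.Surj N` from the single remaining input

* `DivHXRoot N` ([X1], `DescentInst/XRoot.lean`): the `m`-th power of the Eisenstein root
  `x_φ = E_φ / E₄` is an `m`-divisible modular function over `ℂ`,

through the landed chain: `DescentInst.horb_of_stab` + `DescentInst.divH_coeffMap` (finite orbit),
`KummerDescent.exists_descent_gens` (descent `ℂ → ℚ̄`), `SurjCore.exists_root_of_descent`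
(the `ℚ̄`-side root with multiplier `φ`), `SurjBrick.surj_of_exRoot` (Kummer converse).
-/
import Mathlib
import Fermat.Agent.S30.Producer.SurjBrick
import Fermat.Agent.S30.Producer.SurjCore
import Fermat.Agent.S30.KummerDescentInst
import Fermat.Agent.S30.DescentInst.Horb
import Fermat.Agent.S30.DescentInst.AutStable

set_option autoImplicit false
set_option linter.dupNamespace false

noncomputable section

open scoped MatrixGroups
open CongruenceSubgroup ModularCurve AlgebraicCurve UpperHalfPlane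
open Fermat.Agent.S24.HolH Fermat.Agent.S24.Theta Fermat.Agent.S24.Modular
open Fermat.Agent.S30.KummerChar Fermat.Agent.S24

namespace Fermat.Agent.S30.Producer.SurjFinal

/-- Upper triangular elements of `Γ₀(N)` have `tr² = 4`. -/
theorem mem_parEll_of_lower_left_eq_zero {N : ℕ} (γ : Gamma0 N)
    (h : ((γ : SL(2, ℤ)) : Matrix (Fin 2) (Fin 2) ℤ) 1 0 = 0) : γ ∈ parEll N := by
  show ((γ : SL(2, ℤ)) : Matrix (Fin 2) (Fin 2) ℤ).trace ^ 2 ≤ 4
  have hdet : (γ : SL(2, ℤ)) 0 0 * (γ : SL(2, ℤ)) 1 1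
      - (γ : SL(2, ℤ)) 0 1 * (γ : SL(2, ℤ)) 1 0 = 1 := by
    have := (γ : SL(2, ℤ)).det_coe
    rwa [Matrix.det_fin_two] at this
  have h' : (γ : SL(2, ℤ)) 1 0 = 0 := h
  rw [h', mul_zero, sub_zero] at hdet
  rw [Matrix.trace_fin_two]
  rcases Int.eq_one_or_neg_one_of_mul_eq_one' hdet with ⟨h0, h1⟩ | ⟨h0, h1⟩
  · have e0 : ((γ : SL(2, ℤ)) : Matrix (Fin 2) (Fin 2) ℤ) 0 0 = 1 := h0
    have e1 : ((γ : SL(2, ℤ)) : Matrix (Fin 2) (Fin 2) ℤ) 1 1 = 1 := h1
    rw [e0, e1]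
    norm_num
  · have e0 : ((γ : SL(2, ℤ)) : Matrix (Fin 2) (Fin 2) ℤ) 0 0 = -1 := h0
    have e1 : ((γ : SL(2, ℤ)) : Matrix (Fin 2) (Fin 2) ℤ) 1 1 = -1 := h1
    rw [e0, e1]
    norm_num

/-- **[X1]**: the `m`-th power of the Eisenstein root is `m`-divisible (over `ℂ`). -/
def DivHXRoot (N : ℕ) [NeZero N] : Prop :=
  ∀ (m : ℕ), 0 < m → ∀ φ : Gamma0 N →* ℂˣ, (∀ γ, φ γ ^ m = 1) →
    (∀ γ : Gamma0 N, ((γ : SL(2, ℤ)) : Matrix (Fin 2) (Fin 2) ℤ) 1 0 = 0 → φ γ = 1) →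
    Fermat.Agent.S30.DescentInst.DivH N m (Fermat.Agent.S30.EisRoot.xRoot φ ^ m)

/-- **(ExRoot) from [X1]**: Eisenstein series with character + descent `ℂ → ℚ̄`. -/
theorem exRoot_of_divH (N : ℕ) [NeZero N] (hX : DivHXRoot N) :
    Fermat.Agent.S30.Producer.SurjBrick.ExRoot N := by
  intro m hm φ hφm hφpe
  have hpar : ∀ γ : Gamma0 N, ((γ : SL(2, ℤ)) : Matrix (Fin 2) (Fin 2) ℤ) 1 0 = 0 → φ γ = 1 :=
    fun γ hγ => hφpe γ (mem_parEll_of_lower_left_eq_zero γ hγ)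
  have hunit := Fermat.Agent.S30.EisGood.norm_phi_eq_one φ hm hφm
  have hD := hX m hm φ hφm hpar
  have horb := Fermat.Agent.S30.DescentInst.horb_of_stab N m hm
    (fun σ f hf => Fermat.Agent.S30.DescentInst.divH_coeffMap N m σ hf)
    (Fermat.Agent.S30.EisRoot.xRoot φ) hD
  obtain ⟨y, hy0, hym, u, hu, hu0, hyu⟩ :=
    Fermat.Agent.S30.KummerDescent.exists_descent_gens N iotaBar m hm
      (Fermat.Agent.S30.EisRoot.xRoot φ) (Fermat.Agent.S30.EisRoot.xRoot_ne_zero φ hunit hpar)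
      hD.mem_FC horb
  have hym' : y ^ m ∈ IntermediateField.adjoin Kbar (DegreeGen.gens Kbar N) := by
    rw [← DegreeGen.laurentBaseChange_full_eq_adjoin]
    exact hym
  obtain ⟨f, a, b, H, -, ha, hb, -, hroot, hmult⟩ :=
    Fermat.Agent.S30.Producer.SurjCore.exists_root_of_descent hm φ hφm hpar y hy0 hym' u hu hu0 hyu
  exact ⟨a, b, H, ha, hb, hroot, hmult⟩

/-- **`Prod.Surj` from [X1].** -/
theorem surj_of_divH (N : ℕ) [NeZero N] (hX : DivHXRoot N) : Bricks.Surj N :=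
  Fermat.Agent.S30.Producer.SurjBrick.surj_of_exRoot N (exRoot_of_divH N hX)

end Fermat.Agent.S30.Producer.SurjFinal

end
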