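/-
S30 PRODUCER, brick `Prod.Surj` (tasks#237, helper5): the input [X1] and the final theorem.

* `divH_xRoot`: the `m`-th power of the Eisenstein root `x_φ` (the `q`-expansion of `E_φ / E₄`)
  is an `m`-divisible modular function over `ℂ`:  `x_φ ^ m · j ^ m = f` with `f` good,
  `θ f · Δ ^ m = (E_φ · E₄²) ^ m` and `θ (j ^ m) = (θ j) ^ m`, so both orders are divisible by `m`
  at every point of `ℍ`.
* `surj (N) [NeZero N] : Producer.Bricks.Surj N`, unconditional.
-/
import Mathlib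
import Fermat.Agent.S30.Producer.SurjFinal

set_option autoImplicit false
set_option linter.dupNamespace false

noncomputable section

open scoped MatrixGroups Manifold
open CongruenceSubgroup ModularCurve AlgebraicCurve UpperHalfPlane ModularForm
open Fermat.Agent.S24.HolH Fermat.Agent.S24.Theta Fermat.Agent.S24.Modular
open Fermat.Agent.S30.KummerChar Fermat.Agent.S24
open Fermat.Agent.Lib.EisChar Fermat.Agent.S30.DescentInst
open Fermat.Agent.S30.Producer.SurjCore

namespace Fermat.Agent.S30.Producer.SurjXRoot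

local notation "Δ" => ModularForm.discriminant

/-- The discriminant as an element of `HolH`. -/
def discH : HolH := ⟨fun τ : ℍ => Δ τ, CuspForm.discriminant.holo'⟩

theorem discH_apply (τ : ℍ) : (discH : ℍ → ℂ) τ = Δ τ := rfl

theorem discH_ne_zero : discH ≠ 0 := by
  intro h
  have h1 := congrArg (fun f : HolH => (f : ℍ → ℂ) UpperHalfPlane.I) h
  exact discriminant_ne_zero UpperHalfPlane.I h1

variable {N : ℕ} [NeZero N]

/-- **[X1]** The `m`-th power of the Eisenstein root is an `m`-divisible modular function. -/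
theorem divH_xRoot {m : ℕ} (hm : 0 < m) (φ : Gamma0 N →* ℂˣ) (hφm : ∀ γ, φ γ ^ m = 1)
    (hpar : ∀ γ : Gamma0 N, ((γ : SL(2, ℤ)) : Matrix (Fin 2) (Fin 2) ℤ) 1 0 = 0 → φ γ = 1) :
    DivH N m (Fermat.Agent.S30.EisRoot.xRoot φ ^ m) := by
  have hunit := Fermat.Agent.S30.EisGood.norm_phi_eq_one φ hm hφm
  obtain ⟨fS, hf1, hf2, hf3, hx0, hxf, -, -⟩ :=
    Fermat.Agent.S30.EisRoot.exists_root_series N m hm φ hφm hpar
  have hgood : fS ∈ GoodC N :=
    (Fermat.Agent.S30.Rational.mem_good_iff (RingHom.id ℂ) N).mpr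
      ⟨Fermat.Agent.S30.EisGood.gFun φ m, hf1, hf2, hf3⟩
  set a : GoodC N := ⟨fS, hgood⟩ with ha_def
  have hj0 : jC N ≠ 0 := by
    intro h
    have h1 : ((jC N : GoodC N) : LaurentSeries ℂ) = 0 := by rw [h]; rfl
    rw [coe_jC] at h1
    have h2 : (coeffEmb ℂ jq).coeff (-1) = 0 := by rw [h1]; rfl
    rw [coeffEmb_coeff, coeff_jq_neg_one] at h2
    simp at h2
  have hjS : (coeffEmb ℂ jq : LaurentSeries ℂ) ≠ 0 := by
    rw [← coe_jC N]
    exact fun h => hj0 (Subtype.ext h)
  have ha : a ≠ 0 := by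
    intro h
    have h1 : fS = 0 := congrArg (fun x : GoodC N => (x : LaurentSeries ℂ)) h
    rw [← hxf] at h1
    exact mul_ne_zero (pow_ne_zero m hx0) (pow_ne_zero m hjS) h1
  have hb : jC N ^ m ≠ 0 := pow_ne_zero m hj0
  refine ⟨a, jC N ^ m, ha, hb, ?_, fun τ => ?_⟩
  · show Fermat.Agent.S30.EisRoot.xRoot φ ^ m * ((jC N : GoodC N) : LaurentSeries ℂ) ^ m = fS
    rw [coe_jC]
    exact hxf
  · -- the avatar of `a` is `g = E_φ^m E₄^(2m) / Δ^m`
    have hθa : ((thetaC N a : HolH) : ℍ → ℂ) = Fermat.Agent.S30.EisGood.gFun φ m :=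
      (coe_thetaC N a).trans ((sysC N).funOf_eq hf1)
    have hAD : thetaC N a * discH ^ m = (eisH φ hunit * e4H ^ 2) ^ m := by
      apply Subtype.ext
      funext τ
      have h1 := congrFun hθa τ
      have hΔ : Δ τ ≠ 0 := discriminant_ne_zero τ
      show (thetaC N a : ℍ → ℂ) τ * (discH : ℍ → ℂ) τ ^ m
        = ((eisH φ hunit : ℍ → ℂ) τ * (e4H : ℍ → ℂ) τ ^ 2) ^ m
      rw [h1, discH_apply, eisH_apply, e4H_apply, Fermat.Agent.S30.EisGood.gFun,
        div_mul_cancel₀ _ (pow_ne_zero m hΔ)]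
      ring
    have hθa0 : thetaC N a ≠ 0 := thetaC_ne_zero N ha
    have hP0 : eisH φ hunit * e4H ^ 2 ≠ 0 := by
      intro h
      rw [h, zero_pow hm.ne'] at hAD
      exact mul_ne_zero hθa0 (pow_ne_zero m discH_ne_zero) hAD
    have ham : (m : ℤ) ∣ ordZ τ (thetaC N a) := by
      have h1 := congrArg (ordZ τ) hAD
      rw [ordZ_mul τ hθa0 (pow_ne_zero m discH_ne_zero),
        Fermat.Agent.Lib.HolRootH.ordZ_pow τ discH_ne_zero,
        Fermat.Agent.Lib.HolRootH.ordZ_pow τ hP0] at h1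
      refine ⟨ordZ τ (eisH φ hunit * e4H ^ 2) - ordZ τ discH, ?_⟩
      linear_combination h1
    have hbm : (m : ℤ) ∣ ordZ τ (thetaC N (jC N ^ m)) := by
      rw [map_pow, Fermat.Agent.Lib.HolRootH.ordZ_pow τ (thetaC_ne_zero N hj0)]
      exact Dvd.intro _ rfl
    exact dvd_sub ham hbm

/-- **[X1]** in the shape consumed by `SurjFinal`. -/
theorem divHXRoot (N : ℕ) [NeZero N] : Fermat.Agent.S30.Producer.SurjFinal.DivHXRoot N :=
  fun _ hm φ hφm hpar => divH_xRoot hm φ hφm hpar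

/-- **`Prod.Surj`** (tasks#237): every `μ_m`-valued character of `Γ₀(N)` trivial on parabolic
and elliptic elements is the Kummer character of a function of `F_N` (over `ℚ̄`) with
`m ∣ div f`. -/
theorem surj (N : ℕ) [NeZero N] : Bricks.Surj N :=
  Fermat.Agent.S30.Producer.SurjFinal.surj_of_divH N (divHXRoot N)

end Fermat.Agent.S30.Producer.SurjXRoot

end
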