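/-
S30 PRODUCER, exit (helper13).

  `Bricks.K1 N`  ⟹  `Nonempty (ESData N p)`     for every level `N ≥ 1` and every prime `p`.

`Bricks.K1 N` is the Kummer statement (K1) at the primes `q ∤ N` (Program E, chain A:
Model theorem + modular inputs + S18 glue; `E4.K1`).  Everything else — the Betti side
(`Γ₀(N)^ab / ⟨parabolic, elliptic⟩`, Kummer characters, Eisenstein series with character and the
descent `ℂ → ℚ̄`, the Hecke correspondences, the period map) and the formal Eichler–Shimura
congruence — is discharged by landed theorems.
-/
import Mathlib
import Fermat.Agent.S30.Producer.Assembly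
import Fermat.Agent.S30.Producer.SurjXRoot

set_option autoImplicit false

namespace Fermat.Agent.S30.Producer

/-- **The producer modulo (K1).** -/
theorem nonempty_esData_of_k1 (N p : ℕ) [NeZero N] [Fact p.Prime] (hK1 : Bricks.K1 N) :
    Nonempty (ESData N p) :=
  Assembly.nonempty_esData_of_bricks N p (SurjXRoot.surj N) hK1

end Fermat.Agent.S30.Producer
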