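/-
S30 PRODUCER, FINAL exit (helper13).

  `Nonempty (ESData N p)`   for every level `N ≥ 1` and every prime `p`, unconditionally.

`Producer.nonempty_esData_of_k1` (Betti side + formal Eichler–Shimura congruence, all landed)
applied to `E4.k1` (the Kummer statement (K1) at the primes `q ∤ N`: Model theorem + modular
inputs + S18 glue, Program E chain A).
-/
import Mathlib
import Fermat.Agent.S30.Producer.Main
import Fermat.Agent.S30.E4.K1

set_option autoImplicit false

namespace Fermat.Agent.S30.Producer

/-- The brick `(K1)` in the producer's shape. -/
theorem bricks_k1 (N : ℕ) [NeZero N] : Bricks.K1 N :=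
  fun q hq hqN A hA => E4.k1 N q hq hqN A hA

/-- **THE PRODUCER**: Eichler–Shimura matrix data exist for every level `N ≥ 1` and every
prime `p`. -/
theorem nonempty_esData (N p : ℕ) [NeZero N] [Fact p.Prime] : Nonempty (ESData N p) :=
  nonempty_esData_of_k1 N p (bricks_k1 N)

end Fermat.Agent.S30.Producer
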