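/-
S30 PRODUCER, brick `Prod.HeckeGal` (task 241, helper110).

The formal multiplicative Hecke operator `Congr.heckeMul ℓ (zeta ℓ)` commutes with the
coefficientwise Galois action: `coeffMap_heckeMul` moves `σ` inside at the price of replacing
the primitive root `ζ` by `σ ζ`, and `heckeMul` does not depend on the choice of the primitive
`ℓ`-th root of unity (`σ ζ = ζ ^ k` with `k` prime to `ℓ`; reindex the product).
-/
import Mathlib
import Fermat.Agent.S30.Producer.Bricks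

set_option autoImplicit false

noncomputable section

open HahnSeries ModularCurve

namespace Fermat.Agent.S30.Producer.HeckeGalAux

variable {R : Type*} [CommRing R]

/-- `∏_{i<ℓ} f (z^{k i} q) = ∏_{i<ℓ} f (zⁱ q)` when `z ^ ℓ = 1` and `k` is prime to `ℓ`. -/
theorem conjProd_pow_of_coprime (ℓ : ℕ) (hℓ : 1 < ℓ) (z : Rˣ) (hz : z ^ ℓ = 1) (k : ℕ)
    (hk : k.Coprime ℓ) (f : LaurentSeries R) :
    Congr.conjProd ℓ (z ^ k) f = Congr.conjProd ℓ z f := by
  unfold Congr.conjProd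
  obtain ⟨k', -, hk'⟩ := Nat.exists_mul_mod_eq_one_of_coprime hk hℓ
  have hℓ0 : 0 < ℓ := by omega
  have hpow : ∀ m : ℕ, z ^ m = z ^ (m % ℓ) := fun m => by
    conv_lhs => rw [← Nat.div_add_mod m ℓ, _root_.pow_add, _root_.pow_mul, hz, one_pow, one_mul]
  have hkk : k * k' ≡ 1 [MOD ℓ] := by
    unfold Nat.ModEq
    rw [hk', Nat.mod_eq_of_lt hℓ]
  have hkk' : k' * k ≡ 1 [MOD ℓ] := by rwa [mul_comm] at hkk
  refine Finset.prod_nbij' (fun i => (k * i) % ℓ) (fun j => (k' * j) % ℓ) ?_ ?_ ?_ ?_ ?_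
  · intro i _
    exact Finset.mem_range.2 (Nat.mod_lt _ hℓ0)
  · intro j _
    exact Finset.mem_range.2 (Nat.mod_lt _ hℓ0)
  · intro i hi
    have hi' : i < ℓ := Finset.mem_range.1 hi
    have h1 : k' * ((k * i) % ℓ) ≡ i [MOD ℓ] := by
      calc k' * ((k * i) % ℓ) ≡ k' * (k * i) [MOD ℓ] := (Nat.mod_modEq _ _).mul_left _
        _ = (k' * k) * i := by ring
        _ ≡ 1 * i [MOD ℓ] := hkk'.mul_right _
        _ = i := one_mul i
    show (k' * ((k * i) % ℓ)) % ℓ = i
    rw [h1, Nat.mod_eq_of_lt hi']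
  · intro j hj
    have hj' : j < ℓ := Finset.mem_range.1 hj
    have h1 : k * ((k' * j) % ℓ) ≡ j [MOD ℓ] := by
      calc k * ((k' * j) % ℓ) ≡ k * (k' * j) [MOD ℓ] := (Nat.mod_modEq _ _).mul_left _
        _ = (k * k') * j := by ring
        _ ≡ 1 * j [MOD ℓ] := hkk.mul_right _
        _ = j := one_mul j
    show (k * ((k' * j) % ℓ)) % ℓ = j
    rw [h1, Nat.mod_eq_of_lt hj']
  · intro i _
    show Congr.rescale ((z ^ k) ^ i) f = Congr.rescale (z ^ ((k * i) % ℓ)) f
    rw [← _root_.pow_mul, hpow (k * i)]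

/-- In a domain, `∏_{i<ℓ} f (zⁱ q)` does not depend on the primitive `ℓ`-th root of unity `z`. -/
theorem conjProd_eq_of_isPrimitiveRoot [IsDomain R] (ℓ : ℕ) (hℓ : 1 < ℓ) (z z' : Rˣ)
    (hz : IsPrimitiveRoot z ℓ) (hz' : IsPrimitiveRoot z' ℓ) (f : LaurentSeries R) :
    Congr.conjProd ℓ z' f = Congr.conjProd ℓ z f := by
  have hℓ0 : 0 < ℓ := by omega
  have : NeZero ℓ := ⟨hℓ0.ne'⟩
  have hzR : IsPrimitiveRoot (z : R) ℓ := IsPrimitiveRoot.coe_units_iff.mpr hz
  have hz'1 : (z' : R) ^ ℓ = 1 := by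
    have := congrArg Units.val hz'.pow_eq_one
    simpa using this
  obtain ⟨k, -, hk⟩ := hzR.eq_pow_of_pow_eq_one hz'1
  have hk' : z ^ k = z' := Units.ext (by simpa using hk)
  have hcop : k.Coprime ℓ := (hz.pow_iff_coprime hℓ0 k).mp (hk' ▸ hz')
  rw [← hk']
  exact conjProd_pow_of_coprime ℓ hℓ z hz.pow_eq_one k hcop f

/-- In a domain, the multiplicative Hecke operator does not depend on the primitive `ℓ`-th root
of unity. -/
theorem heckeMul_eq_of_isPrimitiveRoot [IsDomain R] (ℓ : ℕ) (hℓ : 1 < ℓ) (z z' : Rˣ)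
    (hz : IsPrimitiveRoot z ℓ) (hz' : IsPrimitiveRoot z' ℓ) (f : LaurentSeries R) :
    Congr.heckeMul ℓ (by omega) z' f = Congr.heckeMul ℓ (by omega) z f := by
  unfold Congr.heckeMul Congr.normL
  rw [conjProd_eq_of_isPrimitiveRoot ℓ hℓ z z' hz hz' f]

end Fermat.Agent.S30.Producer.HeckeGalAux

namespace Fermat.Agent.S30.Producer

/-- **Brick `Prod.HeckeGal`**: the formal Hecke operator commutes with the coefficientwise
Galois action. -/
theorem heckeGal_brick : Bricks.HeckeGal := by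
  intro ℓ hℓ σ f
  rw [Congr.coeffMap_heckeMul]
  -- `σ ζ` is again a primitive `ℓ`-th root of unity
  have h := (zeta_spec hℓ.pos)
  have hinj : Function.Injective (Units.map ((σ : Qb →+* Qb) : Qb →* Qb)) :=
    Units.map_injective (f := ((σ : Qb →+* Qb) : Qb →* Qb)) σ.injective
  exact HeckeGalAux.heckeMul_eq_of_isPrimitiveRoot ℓ hℓ.one_lt _ _
    (h.map_of_injective hinj) (zeta_spec hℓ.pos) _

end Fermat.Agent.S30.Producer
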