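/-
S30 PRODUCER brick `Prod.HeckeRoot` (tasks#238, helper22).

`theorem heckeRoot (N) : Bricks.HeckeRoot N` — wiring of helper206's
`KummerHecke.exists_isKummerRoot_heckeFN` (Kummer root of `T_ℓ (a / b)`, multipliers = transfer)
into the frozen brick shape of `Producer/Bricks.lean` (`ι = iotaBar`, `z = zeta ℓ`, `f = a / b`,
`g` any element of `FN N` with `q`-expansion `Congr.heckeMul ℓ (zeta ℓ) f`).
-/
import Mathlib
import Fermat.Agent.S30.Producer.Bricks
import Fermat.Agent.S30.KummerHecke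

set_option autoImplicit false

noncomputable section

open scoped MatrixGroups
open CongruenceSubgroup ModularCurve AlgebraicCurve UpperHalfPlane
open Fermat.Agent.S24.HolH Fermat.Agent.S24.Theta Fermat.Agent.S24.Modular
open Fermat.Agent.S30.KummerChar

namespace Fermat.Agent.S30.Producer.HeckeRootBrick

/-- **Brick `Prod.HeckeRoot`.** -/
theorem heckeRoot (N : ℕ) : Bricks.HeckeRoot N := by
  intro ℓ _ hℓ hℓN m hm f g a b H ha hb hfb hroot hg
  have : NeZero N := ⟨fun h => hℓN (h ▸ dvd_zero ℓ)⟩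
  have hz : IsPrimitiveRoot (zeta ℓ) ℓ := zeta_spec hℓ.pos
  obtain ⟨a', b', H', ha', hb', e, h', hmult⟩ :=
    KummerHecke.exists_isKummerRoot_heckeFN hm hℓ hℓN hz ha hb hroot
  refine ⟨a', b', H', ha', hb', ?_, h', hmult⟩
  have hb0 : (b : FN N) ≠ 0 := fun h0 => hb (Subtype.ext h0)
  have hf : f = (a : FN N) / (b : FN N) := by
    rw [eq_div_iff hb0]
    exact hfb
  have hgT : g = KummerHecke.heckeFN hℓ hℓN hz ((a : FN N) / (b : FN N)) := by
    apply Subtype.ext
    rw [hg, hf]
    rfl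
  rw [hgT]
  exact e

end Fermat.Agent.S30.Producer.HeckeRootBrick
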