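/-
S30 PRODUCER, brick `Prod.Root` (tasks row 234, helper274).

Every nonzero `f ∈ F_N` with `m ∣ div f` is a quotient `a / b` of elements of `A0 N` for which
`θ a * θ b ^ (m - 1)` has a holomorphic `m`-th root on the upper half plane.
-/
import Mathlib
import Fermat.Agent.S30.Producer.Bricks
import Fermat.Agent.S30.KummerChar.Main

set_option autoImplicit false

noncomputable section

open scoped MatrixGroups
open CongruenceSubgroup ModularCurve AlgebraicCurve UpperHalfPlane
open Fermat.Agent.S24.HolH Fermat.Agent.S24.Theta Fermat.Agent.S24.Modular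
open Fermat.Agent.S30.KummerChar

namespace Fermat.Agent.S30.Producer.RootBrick

/-- **Brick `Prod.Root`.** -/
theorem root (N : ℕ) : Bricks.Root N := by
  intro m hm f hf hdiv
  obtain ⟨a, b, hb, hab⟩ := exists_mul_eq f
  have hb0 : b ≠ 0 := fun h => hb (by rw [h]; rfl)
  have ha0 : a ≠ 0 := ne_zero_of_mul_eq hf hb0 hab
  have hdiv' : ∀ v : Place Kbar (FN N), (m : ℤ) ∣ v.ord (a : FN N) - v.ord (b : FN N) :=
    dvd_ord_sub_of_mul_eq hf hb0 hab hdiv
  obtain ⟨H, hH⟩ := exists_isKummerRoot (ι := iotaBar) hm ha0 hb0 hdiv'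
  exact ⟨a, b, H, ha0, hb0, hab, hH⟩

end Fermat.Agent.S30.Producer.RootBrick
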