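/-
S30 PRODUCER, brick `Prod.THomParEll` (task 240, helper51).

The transfer `γ ↦ ∑ₓ [coc γ x] ∈ A = Γ₀(N)^ab / ⟨parabolic, elliptic⟩` kills the parabolic and
elliptic elements of `Γ₀(N)` (those with `tr² ≤ 4`).  This is the cycle argument of
`BettiHecke/CycleSum.lean` (`sum_coc_eq_zero`) applied to `proj N : Γ₀(N) → A`, which kills
`parEll N` by construction (`proj_parEll`).
-/
import Mathlib
import Fermat.Agent.S30.Producer.Bricks
import Fermat.Agent.S30.BettiHecke.CycleSum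

set_option autoImplicit false

open scoped MatrixGroups
open CongruenceSubgroup

namespace Fermat.Agent.S30.Producer

/-- Brick `Prod.THomParEll`: the transfer `tauHom` kills parabolic and elliptic elements. -/
theorem thomParEll (N : ℕ) : Bricks.THomParEll N := by
  intro ℓ hℓ hℓN γ hγ
  haveI : NeZero ℓ := ⟨hℓ.ne_zero⟩
  exact BettiHecke.CycleSum.sum_coc_eq_zero hℓ hℓN (proj N)
    (fun g hg => proj_parEll (mem_parEll.mpr hg)) γ (mem_parEll.mp hγ)

/-- Consequently `tau N ℓ` is the honest Hecke correspondence on `A`: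
`τ_ℓ [γ] = ∑ₓ [coc γ x]`. -/
theorem tau_proj_eq (N : ℕ) {ℓ : ℕ} (hℓ : ℓ.Prime) (hℓN : ¬ ℓ ∣ N)
    (γ : Additive (Gamma0 N)) : tau N ℓ (proj N γ) = tauHom N hℓ hℓN γ :=
  tau_proj N hℓ hℓN (thomParEll N ℓ hℓ hℓN) γ

end Fermat.Agent.S30.Producer
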